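import Fermat.Agent.IdealShortIntervals.Interval

/-!
# Prime ideals in short intervals

On the hypothesis of Riemann `(x, x + h]` holds `∫_x^(x+h) dt / log t + O (R (1 + log (1 + h / R))
/ log x)` norms of prime ideals, so at least `h / (4 log x)` once `h` is a large multiple of `R`,
and `∼ h / log x` in a fixed field when `h / (√x log x) → ∞`.
-/

set_option autoImplicit false
set_option linter.style.haveILetI false

noncomputable section

universe u

open NumberField Module MeasureTheory Filter Topology
open FA.DedekindZeroCount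
open FA.DedekindPIT (thetaK piK piK_eq intervalIntegrable_thetaK)
open FA.ArtinHooley (FieldRH)
open scoped Real Classical

namespace FA.IdealShortIntervals

/-- **`π_K` in short intervals.** -/
theorem exists_count_interval : ∃ A, 0 ≤ A ∧ ∀ (K : Type u) [Field K] [NumberField K], FieldRH K →
    ∀ x h : ℝ, 4 ≤ x → 0 ≤ h → h ≤ x →
      |piK K (x + h) - piK K x - ∫ t in x..(x + h), 1 / Real.log t| ≤
        A * gapScale K x * (1 + Real.log (1 + h / gapScale K x)) / Real.log x := by
  obtain ⟨A, hA, hθ⟩ := exists_theta_interval.{u}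
  refine ⟨A, hA, fun K _ _ hRH x h hx hh hhx => ?_⟩
  obtain ⟨hlx, -, hR2, -⟩ := scale_facts K hx
  obtain ⟨B, hB⟩ : ∃ B, B = A * gapScale K x * (1 + Real.log (1 + h / gapScale K x)) := ⟨_, rfl⟩
  rw [← hB]
  have hB0 : 0 ≤ B := hB ▸ mul_nonneg (mul_nonneg hA (by linarith))
    (add_nonneg zero_le_one (Real.log_nonneg (le_add_of_nonneg_right (by positivity))))
  obtain ⟨E, hE⟩ : ∃ E : ℝ → ℝ, E = fun t => thetaK K t - thetaK K x - (t - x) := ⟨_, rfl⟩
  have hEb : ∀ t ∈ Set.Icc x (x + h), |E t| ≤ B := fun t ht => by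
    have := hθ K hRH x (t - x) hx (by linarith [ht.1]) (by linarith [ht.2])
    rw [add_sub_cancel] at this
    rw [hE, hB]
    refine this.trans (mul_le_mul_of_nonneg_left ?_ (mul_nonneg hA (by linarith)))
    have h0 : 0 ≤ (t - x) / gapScale K x := div_nonneg (by linarith [ht.1]) (by linarith)
    gcongr
    linarith [ht.2]
  have hne : ∀ t ∈ Set.uIcc x (x + h), 4 ≤ t ∧ t ≠ 0 ∧ Real.log t ≠ 0 := fun t ht => by
    rw [Set.uIcc_of_le (by linarith)] at ht
    exact ⟨by linarith [ht.1], by linarith [ht.1],
      (Real.log_pos (by linarith [ht.1])).ne'⟩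
  have hcont : ContinuousOn (fun t => Real.log t) (Set.uIcc x (x + h)) :=
    fun t ht => (Real.continuousAt_log (hne t ht).2.1).continuousWithinAt
  have hd0 : ∀ t ∈ Set.uIcc x (x + h), t * Real.log t ^ 2 ≠ 0 := fun t ht =>
    mul_ne_zero (hne t ht).2.1 (pow_ne_zero 2 (hne t ht).2.2)
  have i1 : IntervalIntegrable (fun t => 1 / Real.log t) volume x (x + h) :=
    (continuousOn_const.div hcont fun t ht => (hne t ht).2.2).intervalIntegrable
  have i2 : IntervalIntegrable (fun t => t / (t * Real.log t ^ 2)) volume x (x + h) :=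
    (continuousOn_id.div (continuousOn_id.mul (hcont.pow 2)) hd0).intervalIntegrable
  have i0 : IntervalIntegrable (fun t => 1 / (t * Real.log t ^ 2)) volume x (x + h) :=
    (continuousOn_const.div (continuousOn_id.mul (hcont.pow 2)) hd0).intervalIntegrable
  have j1 := intervalIntegrable_thetaK K (show 2 ≤ x by linarith)
  have j2 := intervalIntegrable_thetaK K (show 2 ≤ x + h by linarith)
  have i3 : IntervalIntegrable (fun t => thetaK K t / (t * Real.log t ^ 2)) volume x (x + h) :=
    j1.symm.trans j2
  have hinv : ∫ t in x..(x + h), 1 / (t * Real.log t ^ 2) =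
      1 / Real.log x - 1 / Real.log (x + h) := by
    rw [intervalIntegral.integral_eq_sub_of_hasDerivAt (f := fun u => -(Real.log u)⁻¹)
      (fun t ht => ?_) i0]
    · ring
    · refine ((Real.hasDerivAt_log (hne t ht).2.1).fun_inv (hne t ht).2.2).fun_neg.congr_deriv ?_
      field_simp
  have hparts : ∫ t in x..(x + h), 1 / Real.log t = (x + h) / Real.log (x + h) - x / Real.log x +
      ∫ t in x..(x + h), t / (t * Real.log t ^ 2) := by
    have hd : ∀ t ∈ Set.uIcc x (x + h), HasDerivAt (fun u => u / Real.log u)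
        (1 / Real.log t - t / (t * Real.log t ^ 2)) t := fun t ht => by
      obtain ⟨-, ht0, hl⟩ := hne t ht
      refine ((hasDerivAt_id' t).div (Real.hasDerivAt_log ht0) hl).congr_deriv ?_
      field_simp
    have := intervalIntegral.integral_eq_sub_of_hasDerivAt hd (i1.sub i2)
    rw [intervalIntegral.integral_sub i1 i2] at this
    linarith
  have iE : IntervalIntegrable (fun t => E t / (t * Real.log t ^ 2)) volume x (x + h) := by
    refine ((i3.sub i2).sub (i0.const_mul (thetaK K x - x))).congr fun t _ => ?_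
    rw [hE]
    ring
  have hsplit : ∫ t in x..(x + h), E t / (t * Real.log t ^ 2) =
      (∫ t in x..(x + h), thetaK K t / (t * Real.log t ^ 2)) -
        (∫ t in x..(x + h), t / (t * Real.log t ^ 2)) -
          (thetaK K x - x) * (1 / Real.log x - 1 / Real.log (x + h)) := by
    rw [← hinv, ← intervalIntegral.integral_const_mul, ← intervalIntegral.integral_sub i3 i2,
      ← intervalIntegral.integral_sub (i3.sub i2) (i0.const_mul (thetaK K x - x))]
    refine intervalIntegral.integral_congr fun t _ => ?_
    rw [hE]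
    ring
  have hint : |∫ t in x..(x + h), E t / (t * Real.log t ^ 2)| ≤
      B * (1 / Real.log x - 1 / Real.log (x + h)) := by
    rw [← hinv, ← intervalIntegral.integral_const_mul, ← Real.norm_eq_abs]
    refine intervalIntegral.norm_integral_le_of_norm_le (by linarith)
      (Eventually.of_forall fun t ht => ?_) (i0.const_mul B)
    have hpos : 0 < t * Real.log t ^ 2 :=
      mul_pos (by linarith [ht.1]) (pow_pos (Real.log_pos (by linarith [ht.1])) 2)
    rw [Real.norm_eq_abs, abs_div, abs_of_pos hpos, mul_one_div]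
    exact div_le_div_of_nonneg_right (hEb t ⟨ht.1.le, ht.2⟩) hpos.le
  have hmain : |E (x + h) / Real.log (x + h)| ≤ B * (1 / Real.log (x + h)) := by
    have hpos : 0 < Real.log (x + h) := Real.log_pos (by linarith)
    rw [abs_div, abs_of_pos hpos, mul_one_div]
    exact div_le_div_of_nonneg_right (hEb _ ⟨by linarith, le_rfl⟩) hpos.le
  have e : piK K (x + h) - piK K x - ∫ t in x..(x + h), 1 / Real.log t =
      E (x + h) / Real.log (x + h) + ∫ t in x..(x + h), E t / (t * Real.log t ^ 2) := by
    rw [piK_eq K (show 2 ≤ x + h by linarith), piK_eq K (show 2 ≤ x by linarith), hparts, hsplit,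
      ← intervalIntegral.integral_interval_sub_left j2 j1, hE]
    ring
  rw [e, show B / Real.log x =
    B * (1 / Real.log (x + h)) + B * (1 / Real.log x - 1 / Real.log (x + h)) by ring]
  exact (abs_add_le _ _).trans (add_le_add hmain hint)

theorem integral_inv_log_bounds {x h : ℝ} (hx : 4 ≤ x) (hh : 0 ≤ h) (hhx : h ≤ x) :
    h / (Real.log 2 + Real.log x) ≤ ∫ t in x..(x + h), 1 / Real.log t ∧
      ∫ t in x..(x + h), 1 / Real.log t ≤ h / Real.log x := by
  have hl : 0 < Real.log x := Real.log_pos (by linarith)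
  have hi : IntervalIntegrable (fun t => 1 / Real.log t) volume x (x + h) := by
    refine (continuousOn_const.div (fun t ht => ?_) fun t ht => ?_).intervalIntegrable
    all_goals rw [Set.uIcc_of_le (by linarith)] at ht
    · exact (Real.continuousAt_log (by linarith [ht.1])).continuousWithinAt
    · exact (Real.log_pos (by linarith [ht.1])).ne'
  have hle : x ≤ x + h := by linarith
  constructor
  · have := intervalIntegral.integral_mono_on (μ := volume) hle
      (intervalIntegrable_const (c := 1 / (Real.log 2 + Real.log x))) hi fun t ht => ?_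
    · simpa [div_eq_mul_inv] using this
    · rw [← Real.log_mul two_ne_zero (by linarith)]
      exact one_div_le_one_div_of_le (Real.log_pos (by linarith [ht.1]))
        (Real.log_le_log (by linarith [ht.1]) (by linarith [ht.2]))
  · have := intervalIntegral.integral_mono_on (μ := volume) hle hi
      (intervalIntegrable_const (c := 1 / Real.log x)) fun t ht => ?_
    · simpa [div_eq_mul_inv] using this
    · exact one_div_le_one_div_of_le hl (Real.log_le_log (by linarith) ht.1)

theorem one_add_log_le {r : ℝ} (hr : 1 ≤ r) : 1 + Real.log (1 + r) ≤ 5 * √r := by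
  have hp : 0 < √(1 + r) := Real.sqrt_pos.2 (by linarith)
  have h1 := Real.log_le_sub_one_of_pos hp
  rw [Real.log_sqrt (by linarith)] at h1
  have h2 : √(1 + r) ≤ 2 * √r := by
    refine (Real.sqrt_le_sqrt (show 1 + r ≤ 2 ^ 2 * r by linarith)).trans (le_of_eq ?_)
    rw [Real.sqrt_mul (by norm_num), Real.sqrt_sq (by norm_num)]
  linarith [Real.one_le_sqrt.2 hr]

/-- **Cramér's theorem for prime ideals.** -/
theorem exists_prime_ideal_gap : ∃ M, 1 ≤ M ∧ ∀ (K : Type u) [Field K] [NumberField K],
    FieldRH K → ∀ x h : ℝ, 4 ≤ x → M * gapScale K x ≤ h → h ≤ x →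
      h / (4 * Real.log x) ≤ piK K (x + h) - piK K x := by
  obtain ⟨A, hA, hc⟩ := exists_count_interval.{u}
  refine ⟨(20 * A + 1) ^ 2, one_le_pow₀ (by linarith), fun K _ _ hRH x h hx hM hhx => ?_⟩
  obtain ⟨hlx, -, hR2, -⟩ := scale_facts K hx
  obtain ⟨R, hR⟩ : ∃ R, R = gapScale K x := ⟨_, rfl⟩
  rw [← hR] at hM hR2
  obtain ⟨r, hr⟩ : ∃ r, r = h / R := ⟨_, rfl⟩
  have hh : h = r * R := by rw [hr, div_mul_cancel₀ _ (by linarith)]
  have hrM : (20 * A + 1) ^ 2 ≤ r := by rw [hr, le_div_iff₀ (by linarith)]; exact hM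
  have hr1 : 1 ≤ r := le_trans (one_le_pow₀ (by linarith)) hrM
  have hsr : 20 * A ≤ √r := by
    refine le_trans ?_ (Real.sqrt_le_sqrt hrM)
    rw [Real.sqrt_sq (by linarith)]
    linarith
  have hh0 : 0 ≤ h := le_trans (mul_nonneg (by positivity) (by linarith)) hM
  have h1 := (abs_le.1 (hc K hRH x h hx hh0 hhx)).1
  rw [← hR, ← hr] at h1
  have h2 := (integral_inv_log_bounds hx hh0 hhx).1
  have h3 : h / (2 * Real.log x) ≤ h / (Real.log 2 + Real.log x) := by
    refine div_le_div_of_nonneg_left hh0 (add_pos (Real.log_pos one_lt_two) (by linarith)) ?_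
    linarith [Real.log_le_log two_pos (show 2 ≤ x by linarith)]
  have h4 : 4 * (A * R * (1 + Real.log (1 + r))) ≤ h := by
    have := mul_le_mul_of_nonneg_left (one_add_log_le hr1) (show 0 ≤ 4 * A * R by positivity)
    have := mul_le_mul_of_nonneg_right hsr (show 0 ≤ √r * R by positivity)
    have := Real.mul_self_sqrt (show 0 ≤ r by linarith)
    rw [hh]
    nlinarith
  have h5 : A * R * (1 + Real.log (1 + r)) / Real.log x ≤ h / (4 * Real.log x) := by
    rw [← div_div]
    exact div_le_div_of_nonneg_right (by linarith) (by linarith)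
  have e : h / (2 * Real.log x) = h / (4 * Real.log x) + h / (4 * Real.log x) := by ring
  linarith

/-- **The asymptotic in a fixed field.** -/
theorem tendsto_count_interval (K : Type u) [Field K] [NumberField K] (hRH : FieldRH K)
    {h : ℝ → ℝ} (hhx : ∀ᶠ x in atTop, h x ≤ x)
    (hlim : Tendsto (fun x => h x / (√x * Real.log x)) atTop atTop) :
    Tendsto (fun x => (piK K (x + h x) - piK K x) * Real.log x / h x) atTop (𝓝 1) := by
  obtain ⟨A, hA, hc⟩ := exists_count_interval.{u}
  obtain ⟨c, hcdef⟩ : ∃ c, c = discLog K + finrank ℚ K := ⟨_, rfl⟩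
  have hc1 : 1 ≤ c := by
    rw [hcdef]
    linarith [discLog_nonneg K, (Nat.one_le_cast.2 finrank_pos : (1 : ℝ) ≤ finrank ℚ K)]
  have hq : Tendsto (fun x => h x / (√x * Real.log x) / c) atTop atTop :=
    hlim.atTop_div_const (by linarith)
  have hz : Tendsto (fun x => 5 * A / √(h x / (√x * Real.log x) / c)) atTop (𝓝 0) :=
    (Real.tendsto_sqrt_atTop.comp hq).const_div_atTop _
  have hlog : Tendsto (fun x => Real.log x / (Real.log 2 + Real.log x)) atTop (𝓝 1) := by
    have h0 : Tendsto (fun x => 1 - Real.log 2 / (Real.log 2 + Real.log x)) atTop (𝓝 1) := by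
      simpa using ((tendsto_atTop_add_const_left _ (Real.log 2)
        Real.tendsto_log_atTop).const_div_atTop (Real.log 2)).const_sub 1
    refine h0.congr' ?_
    filter_upwards [eventually_ge_atTop (4 : ℝ)] with x hx
    have : Real.log 2 + Real.log x ≠ 0 :=
      (add_pos (Real.log_pos one_lt_two) (Real.log_pos (by linarith))).ne'
    field_simp
    ring
  have key : ∀ᶠ x in atTop,
      |(piK K (x + h x) - piK K x) * Real.log x / h x -
        (∫ t in x..(x + h x), 1 / Real.log t) * Real.log x / h x| ≤
          5 * A / √(h x / (√x * Real.log x) / c) ∧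
        Real.log x / (Real.log 2 + Real.log x) ≤
          (∫ t in x..(x + h x), 1 / Real.log t) * Real.log x / h x ∧
        (∫ t in x..(x + h x), 1 / Real.log t) * Real.log x / h x ≤ 1 := by
    filter_upwards [eventually_ge_atTop (4 : ℝ), hhx, hq.eventually_ge_atTop 1] with x hx hle hq1
    obtain ⟨hlx, -, hR2, -⟩ := scale_facts K hx
    have hsx : 0 < √x := Real.sqrt_pos.2 (by linarith)
    rw [div_div, one_le_div (by positivity)] at hq1
    have hh0 : 0 < h x := lt_of_lt_of_le (by positivity) hq1
    have hR : gapScale K x ≤ √x * Real.log x * c := by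
      rw [gapScale, mul_assoc, hcdef]
      refine mul_le_mul_of_nonneg_left ?_ hsx.le
      have := le_mul_of_one_le_left (discLog_nonneg K) hlx
      linarith
    have hr : 1 ≤ h x / gapScale K x := by
      rw [one_le_div (by linarith)]
      linarith
    obtain ⟨b1, b2⟩ := integral_inv_log_bounds hx hh0.le hle
    refine ⟨?_, ?_, ?_⟩
    · rw [← sub_div, ← sub_mul, abs_div, abs_mul, abs_of_pos (show 0 < Real.log x by linarith),
        abs_of_pos hh0, div_le_iff₀ hh0]
      refine (mul_le_mul_of_nonneg_right (hc K hRH x (h x) hx hh0.le hle)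
        (show 0 ≤ Real.log x by linarith)).trans ?_
      rw [div_mul_cancel₀ _ (show Real.log x ≠ 0 by linarith)]
      refine (mul_le_mul_of_nonneg_left (one_add_log_le hr)
        (mul_nonneg hA (by linarith))).trans ?_
      obtain ⟨s, hs⟩ : ∃ s, s = √(h x / (√x * Real.log x) / c) := ⟨_, rfl⟩
      obtain ⟨S, hS⟩ : ∃ S, S = √(h x / gapScale K x) := ⟨_, rfl⟩
      have hsS : s ≤ S := by
        rw [hs, hS, div_div]
        exact Real.sqrt_le_sqrt (div_le_div_of_nonneg_left hh0.le (by linarith) hR)
      have hs0 : 0 < s := hs ▸ Real.sqrt_pos.2 (by positivity)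
      have hSS : S * S * gapScale K x = h x := by
        rw [hS, Real.mul_self_sqrt (by linarith), div_mul_cancel₀ _ (by linarith)]
      rw [← hs, ← hS, div_mul_eq_mul_div, le_div_iff₀ hs0]
      have := mul_le_mul_of_nonneg_left hsS (show 0 ≤ 5 * A * (gapScale K x * S) by
        have : 0 ≤ S := hS ▸ Real.sqrt_nonneg _
        positivity)
      linear_combination this + 5 * A * hSS
    · rw [le_div_iff₀ hh0]
      refine le_trans (le_of_eq (by ring))
        (mul_le_mul_of_nonneg_right b1 (show 0 ≤ Real.log x by linarith))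
    · rw [div_le_one hh0]
      refine (mul_le_mul_of_nonneg_right b2 (show 0 ≤ Real.log x by linarith)).trans (le_of_eq ?_)
      rw [div_mul_cancel₀ _ (show Real.log x ≠ 0 by linarith)]
  have hI : Tendsto (fun x => (∫ t in x..(x + h x), 1 / Real.log t) * Real.log x / h x) atTop
      (𝓝 1) :=
    tendsto_of_tendsto_of_tendsto_of_le_of_le' hlog tendsto_const_nhds
      (key.mono fun _ hk => hk.2.1) (key.mono fun _ hk => hk.2.2)
  have hD : Tendsto (fun x => (piK K (x + h x) - piK K x) * Real.log x / h x -
      (∫ t in x..(x + h x), 1 / Real.log t) * Real.log x / h x) atTop (𝓝 0) :=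
    squeeze_zero_norm' (key.mono fun _ hk => hk.1) hz
  simpa using hD.add hI

end FA.IdealShortIntervals

end
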