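import Fermat.Agent.IdealShortIntervals.Sums
import Mathlib.Analysis.SpecialFunctions.Gaussian.FourierTransform

/-!
# Mean squares of sums over the zeros

Against `exp (-u²)` the mean square of `∑ m w e^(iγu)` is `O (∑ m |w|² height γ)`; so on the
hypothesis of Riemann that of `∑ m c t^(ρ+j)` over `[X/2, 3X]` is `X^(2j+2)` times
`O (∑ m |c|² height γ)`.
-/

set_option autoImplicit false
set_option linter.style.haveILetI false

noncomputable section

universe u

open NumberField Module Complex MeasureTheory Set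
open FA.DedekindZF FA.DedekindHadamard FA.DedekindExplicit
open scoped Real Classical ComplexConjugate

namespace FA.IdealShortIntervals

variable (K : Type u) [Field K] [NumberField K]

/-- `∑ m w e^(iγu)`. -/
def trigSum (S : Finset ℂ) (w : ℂ → ℂ) (u : ℝ) : ℂ :=
  ∑ ρ ∈ S, (xiMult K ρ : ℂ) * w ρ * cexp (I * ρ.im * u)

theorem integral_gauss_cexp (d : ℝ) :
    Integrable (fun u : ℝ => cexp (-1 * (u : ℂ) ^ 2 + I * d * u + 0)) ∧
      ‖∫ u : ℝ, cexp (-1 * (u : ℂ) ^ 2 + I * d * u + 0)‖ ≤ 16 / (1 + d ^ 2) := by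
  refine ⟨integrable_cexp_quadratic' (by norm_num) (I * d) 0, ?_⟩
  rw [integral_cexp_quadratic (by norm_num) (I * d) 0, norm_mul, Complex.norm_exp,
    show (π : ℂ) / -(-1 : ℂ) = π by norm_num, norm_cpow_eq_rpow_re_of_pos Real.pi_pos,
    show (0 - (I * (d : ℂ)) ^ 2 / (4 * (-1 : ℂ))) = ((-(d ^ 2 / 4) : ℝ) : ℂ) by
      rw [mul_pow, I_sq]; push_cast; ring, ofReal_re, Real.exp_neg]
  have h1 : π ^ ((1 / 2 : ℂ).re) ≤ 4 := by
    refine le_trans ?_ Real.pi_le_four
    refine Real.rpow_le_self_of_one_le (by linarith [Real.pi_gt_three]) ?_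
    norm_num
  have h2 : (Real.exp (d ^ 2 / 4))⁻¹ ≤ 4 / (1 + d ^ 2) := by
    rw [inv_le_iff_one_le_mul₀ (Real.exp_pos _), div_mul_eq_mul_div, le_div_iff₀ (by positivity)]
    linarith [Real.add_one_le_exp (d ^ 2 / 4)]
  refine (mul_le_mul h1 h2 (inv_nonneg.2 (Real.exp_pos _).le) (by norm_num)).trans (le_of_eq ?_)
  ring

/-- **The mean square against a Gaussian.** -/
theorem exists_gauss_mean : ∃ C, 0 ≤ C ∧ ∀ (K : Type u) [Field K] [NumberField K] (S : Finset ℂ)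
    (w : ℂ → ℂ), Integrable (fun u : ℝ => Real.exp (-u ^ 2) * ‖trigSum K S w u‖ ^ 2) ∧
      ∫ u : ℝ, Real.exp (-u ^ 2) * ‖trigSum K S w u‖ ^ 2 ≤
        C * ∑ ρ ∈ S, (xiMult K ρ : ℝ) * ‖w ρ‖ ^ 2 * height K ρ.im := by
  obtain ⟨W, hW, hw⟩ := exists_window_weight.{u}
  refine ⟨16 * W, by positivity, fun K _ _ S w => ?_⟩
  obtain ⟨z, hz⟩ : ∃ z : ℂ → ℂ, z = fun ρ => (xiMult K ρ : ℂ) * w ρ := ⟨_, rfl⟩
  obtain ⟨f, hf⟩ : ∃ f : ℂ → ℂ → ℝ → ℂ, f = fun a b (u : ℝ) => z a * conj (z b) *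
      cexp (-1 * (u : ℂ) ^ 2 + I * ((a.im - b.im : ℝ) : ℂ) * u + 0) := ⟨_, rfl⟩
  have e : ∀ u : ℝ, ((Real.exp (-u ^ 2) * ‖trigSum K S w u‖ ^ 2 : ℝ) : ℂ) =
      ∑ a ∈ S, ∑ b ∈ S, f a b u := fun u => by
    rw [ofReal_mul, ofReal_pow, ← Complex.mul_conj', trigSum, map_sum, Finset.sum_mul_sum,
      Finset.mul_sum]
    refine Finset.sum_congr rfl fun a _ => ?_
    rw [Finset.mul_sum]
    refine Finset.sum_congr rfl fun b _ => ?_
    rw [hf, hz]
    simp only [map_mul, ← Complex.exp_conj, map_natCast, conj_I, conj_ofReal, Complex.ofReal_exp]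
    rw [Complex.exp_add, Complex.exp_add, Complex.exp_zero, ofReal_sub, mul_sub, sub_mul,
      sub_eq_add_neg, Complex.exp_add]
    push_cast
    ring_nf
  have hi : ∀ a b : ℂ, Integrable (f a b) := fun a b => by
    rw [hf]
    exact (integral_gauss_cexp _).1.const_mul _
  have hI : Integrable fun u : ℝ =>
      ((Real.exp (-u ^ 2) * ‖trigSum K S w u‖ ^ 2 : ℝ) : ℂ) := by
    simp only [e]
    exact integrable_finsetSum _ fun a _ => integrable_finsetSum _ fun b _ => hi a b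
  have hIr : Integrable fun u : ℝ => Real.exp (-u ^ 2) * ‖trigSum K S w u‖ ^ 2 :=
    hI.re.congr (Filter.Eventually.of_forall fun u => Complex.ofReal_re _)
  refine ⟨hIr, ?_⟩
  have h1 : ∫ u : ℝ, Real.exp (-u ^ 2) * ‖trigSum K S w u‖ ^ 2 ≤
      ∑ a ∈ S, ∑ b ∈ S, ‖z a‖ * ‖z b‖ * (16 / (1 + (a.im - b.im) ^ 2)) := by
    refine le_trans (le_of_eq (Complex.ofReal_re _).symm) ((Complex.re_le_norm _).trans ?_)
    rw [← integral_complex_ofReal]
    simp only [e]
    rw [integral_finsetSum _ fun a _ => integrable_finsetSum _ fun b _ => hi a b]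
    refine (norm_sum_le _ _).trans (Finset.sum_le_sum fun a _ => ?_)
    rw [integral_finsetSum _ fun b _ => hi a b]
    refine (norm_sum_le _ _).trans (Finset.sum_le_sum fun b _ => ?_)
    rw [hf]
    simp only
    rw [integral_const_mul, norm_mul, norm_mul, Complex.norm_conj]
    exact mul_le_mul_of_nonneg_left (integral_gauss_cexp _).2 (by positivity)
  refine h1.trans ((Finset.sum_le_sum (g := fun a => ∑ b ∈ S,
    (8 * ((xiMult K a : ℝ) * ‖w a‖ ^ 2) * windowTerm K a.im b +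
      8 * ((xiMult K b : ℝ) * ‖w b‖ ^ 2) * windowTerm K b.im a)) fun a _ =>
        Finset.sum_le_sum fun b _ => ?_).trans ?_)
  · rw [hz]
    simp only [norm_mul, Complex.norm_natCast, windowTerm]
    rw [show (b.im - a.im) ^ 2 = (a.im - b.im) ^ 2 by ring,
      show (xiMult K a : ℝ) * ‖w a‖ * ((xiMult K b : ℝ) * ‖w b‖) *
        (16 / (1 + (a.im - b.im) ^ 2)) = 8 * ((xiMult K a : ℝ) * xiMult K b /
          (1 + (a.im - b.im) ^ 2)) * (2 * ‖w a‖ * ‖w b‖) by ring]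
    refine (mul_le_mul_of_nonneg_left (two_mul_le_add_sq ‖w a‖ ‖w b‖) (by positivity)).trans
      (le_of_eq ?_)
    ring
  simp only [Finset.sum_add_distrib]
  rw [Finset.sum_comm (f := fun a b => 8 * ((xiMult K b : ℝ) * ‖w b‖ ^ 2) * windowTerm K b.im a),
    ← Finset.sum_add_distrib, Finset.mul_sum]
  refine Finset.sum_le_sum fun a _ => ?_
  rw [← Finset.mul_sum]
  obtain ⟨hs, hWa⟩ := hw K a.im
  have h2 := (hs.sum_le_tsum S fun b _ => windowTerm_nonneg K _ b).trans hWa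
  have := mul_le_mul_of_nonneg_left h2
    (show 0 ≤ 16 * ((xiMult K a : ℝ) * ‖w a‖ ^ 2) by positivity)
  linarith

theorem cpow_split {ρ : ℂ} (hρ : ρ.re = 1 / 2) {X : ℝ} (hX : 0 < X) (j : ℕ) (u : ℝ) :
    ((X * Real.exp u : ℝ) : ℂ) ^ (ρ + j) =
      (((X * Real.exp u) ^ j * √(X * Real.exp u) : ℝ) : ℂ) *
        (cexp (I * ρ.im * Real.log X) * cexp (I * ρ.im * u)) := by
  have ht : 0 < X * Real.exp u := by positivity
  have hρ' : ρ = (1 / 2 : ℂ) + ρ.im * I := Complex.ext (by simp [hρ]) (by simp)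
  have hs : √(X * Real.exp u) = Real.exp (Real.log (X * Real.exp u) / 2) := by
    rw [Real.exp_half, Real.exp_log ht]
  rw [cpow_add _ _ (ofReal_ne_zero.2 ht.ne'), cpow_natCast, ← Complex.exp_add,
    cpow_def_of_ne_zero (ofReal_ne_zero.2 ht.ne'), ← ofReal_log ht.le, ofReal_mul (_ ^ j), hs,
    Complex.ofReal_exp, mul_assoc, ← Complex.exp_add, ofReal_pow, mul_comm]
  congr 2
  rw [Real.log_mul hX.ne' (Real.exp_pos u).ne', Real.log_exp]
  conv_lhs => rw [hρ']
  push_cast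
  ring

/-- **The mean square over a dyadic range.** -/
theorem exists_power_mean : ∃ C, 0 ≤ C ∧ ∀ (K : Type u) [Field K] [NumberField K] (S : Finset ℂ)
    (c : ℂ → ℂ) (j : ℕ) (X : ℝ), 0 < X → (∀ ρ ∈ S, ρ.re = 1 / 2) →
      ∫ t in (X / 2)..(3 * X), ‖∑ ρ ∈ S, (xiMult K ρ : ℂ) * c ρ * (t : ℂ) ^ (ρ + j)‖ ^ 2 ≤
        C * (3 * X) ^ (2 * j + 2) * ∑ ρ ∈ S, (xiMult K ρ : ℝ) * ‖c ρ‖ ^ 2 * height K ρ.im := by
  obtain ⟨C, hC, h⟩ := exists_gauss_mean.{u}
  refine ⟨Real.exp 4 * C, by positivity, fun K _ _ S c j X hX hS => ?_⟩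
  obtain ⟨w, hw⟩ : ∃ w : ℂ → ℂ, w = fun ρ => c ρ * cexp (I * ρ.im * Real.log X) := ⟨_, rfl⟩
  obtain ⟨hi, hG⟩ := h K S w
  have hnw : ∀ ρ, ‖w ρ‖ = ‖c ρ‖ := fun ρ => by
    rw [hw]
    simp only [norm_mul, Complex.norm_exp]
    simp
  simp only [hnw] at hG
  obtain ⟨F, hF⟩ : ∃ F : ℝ → ℝ, F = fun t : ℝ =>
      ‖∑ ρ ∈ S, (xiMult K ρ : ℂ) * c ρ * (t : ℂ) ^ (ρ + j)‖ ^ 2 := ⟨_, rfl⟩
  have hFu : ∀ u : ℝ, F (X * Real.exp u) * (X * Real.exp u) =
      (X * Real.exp u) ^ (2 * j + 2) * ‖trigSum K S w u‖ ^ 2 := fun u => by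
    have ht : 0 < X * Real.exp u := by positivity
    have e : ∑ ρ ∈ S, (xiMult K ρ : ℂ) * c ρ * ((X * Real.exp u : ℝ) : ℂ) ^ (ρ + j) =
        (((X * Real.exp u) ^ j * √(X * Real.exp u) : ℝ) : ℂ) * trigSum K S w u := by
      rw [trigSum, Finset.mul_sum]
      refine Finset.sum_congr rfl fun ρ hρ => ?_
      rw [cpow_split (hS ρ hρ) hX j u, hw]
      ring
    rw [hF]
    simp only [e]
    rw [norm_mul, Complex.norm_real, Real.norm_of_nonneg (by positivity), mul_pow, mul_pow,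
      Real.sq_sqrt ht.le, pow_add, pow_mul]
    ring
  have hab : Real.log (1 / 2) ≤ Real.log 3 := Real.log_le_log (by norm_num) (by norm_num)
  have hsub := intervalIntegral.integral_comp_mul_deriv' (a := Real.log (1 / 2)) (b := Real.log 3)
    (f := fun u => X * Real.exp u) (f' := fun u => X * Real.exp u) (g := F)
    (fun u _ => (Real.hasDerivAt_exp u).const_mul X) (by fun_prop) (by
      intro t ht
      obtain ⟨u, -, rfl⟩ := ht
      refine ContinuousAt.continuousWithinAt ?_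
      rw [hF]
      refine ((tendsto_finsetSum _ fun ρ _ => continuousAt_const.mul
        (continuousAt_ofReal_cpow_const _ _
          (Or.inr (mul_pos hX (Real.exp_pos u)).ne'))).norm).pow 2)
  simp only [Real.exp_log (show (0 : ℝ) < 1 / 2 by norm_num),
    Real.exp_log (show (0 : ℝ) < 3 by norm_num), mul_one_div, mul_comm X 3] at hsub
  rw [show (∫ t in (X / 2)..(3 * X), ‖∑ ρ ∈ S, (xiMult K ρ : ℂ) * c ρ * (t : ℂ) ^ (ρ + j)‖ ^ 2) =
    ∫ t in (X / 2)..(3 * X), F t by rw [hF], ← hsub, intervalIntegral.integral_of_le hab]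
  have hb : ∀ u ∈ Ioc (Real.log (1 / 2)) (Real.log 3), F (X * Real.exp u) * (X * Real.exp u) ≤
      Real.exp 4 * (3 * X) ^ (2 * j + 2) * (Real.exp (-u ^ 2) * ‖trigSum K S w u‖ ^ 2) :=
    fun u hu => by
    rw [hFu]
    have h3 : Real.exp u ≤ 3 := (Real.exp_le_exp.2 hu.2).trans (Real.exp_log (by norm_num)).le
    have hu2 : u ^ 2 ≤ 4 := by
      have := Real.log_le_sub_one_of_pos (show (0 : ℝ) < 3 by norm_num)
      have : -1 ≤ Real.log (1 / 2) := by
        rw [one_div, Real.log_inv]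
        linarith [Real.log_le_sub_one_of_pos (show (0 : ℝ) < 2 by norm_num)]
      nlinarith [hu.1, hu.2]
    have he : 1 ≤ Real.exp 4 * Real.exp (-u ^ 2) := by
      rw [← Real.exp_add]
      exact Real.one_le_exp (by linarith)
    calc (X * Real.exp u) ^ (2 * j + 2) * ‖trigSum K S w u‖ ^ 2
        ≤ (3 * X) ^ (2 * j + 2) * ‖trigSum K S w u‖ ^ 2 := by
          refine mul_le_mul_of_nonneg_right (pow_le_pow_left₀ (by positivity) ?_ _) (sq_nonneg _)
          linarith [mul_le_mul_of_nonneg_left h3 hX.le]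
      _ ≤ _ := by
          refine le_trans (le_mul_of_one_le_right (by positivity) he) (le_of_eq ?_)
          ring
  refine (setIntegral_mono_on ?_
    (hi.const_mul (Real.exp 4 * (3 * X) ^ (2 * j + 2))).integrableOn measurableSet_Ioc
    fun u hu => ?_).trans ((setIntegral_le_integral (hi.const_mul _)
      (Filter.Eventually.of_forall fun u => by positivity)).trans ?_)
  · simp only [Function.comp_def]
    simp only [hFu]
    exact (ContinuousOn.integrableOn_Icc (by unfold trigSum; fun_prop)).mono_set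
      Ioc_subset_Icc_self
  · simpa [Function.comp, mul_comm (3 : ℝ)] using hb u hu
  · rw [integral_const_mul]
    refine (mul_le_mul_of_nonneg_left hG (by positivity)).trans (le_of_eq ?_)
    ring

end FA.IdealShortIntervals

end
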