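import Fermat.Agent.IdealShortIntervals.Interval
import Fermat.Agent.IdealShortIntervals.MeanSquare

/-!
# Cramér's mean square for `ψ_K`

On the hypothesis of Riemann `∫_X^(2X) (ψ_K t - t)² = O (X² (1 + log |d| + n)²)`: the unit step of
the moment is a sum over the zeros, whose mean square has no logarithm.
-/

set_option autoImplicit false
set_option linter.style.haveILetI false

noncomputable section

universe u

open NumberField InfinitePlace Module Complex MeasureTheory Set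
open FA.HeckeBS FA.HeckeFE FA.DedekindZF FA.DedekindZeroCount FA.DedekindHadamard
  FA.DedekindExplicit
open FA.DedekindPIT (mangoldtK mangoldtK_nonneg momentSum momentSum_sub_bounds psiK
  partialSum_mono)
open FA.ArtinHooley (fieldSize FieldRH one_le_fieldSize height_le_rpow)
open scoped Real Classical

namespace FA.IdealShortIntervals

theorem sq_integral_unit_le {f : ℝ → ℝ} {a : ℝ} (hf : IntervalIntegrable f volume a (a + 1))
    (hf2 : IntervalIntegrable (fun t => f t ^ 2) volume a (a + 1)) :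
    (∫ t in a..(a + 1), f t) ^ 2 ≤ ∫ t in a..(a + 1), f t ^ 2 := by
  obtain ⟨m, hm⟩ : ∃ m, m = ∫ t in a..(a + 1), f t := ⟨_, rfl⟩
  have h0 : 0 ≤ ∫ t in a..(a + 1), (f t - m) ^ 2 :=
    intervalIntegral.integral_nonneg (by linarith) fun t _ => sq_nonneg _
  have e : ∫ t in a..(a + 1), (f t - m) ^ 2 = (∫ t in a..(a + 1), f t ^ 2) - m ^ 2 := by
    rw [show (fun t => (f t - m) ^ 2) = fun t => f t ^ 2 - 2 * m * f t + m ^ 2 from
      funext fun t => by ring, intervalIntegral.integral_add (hf2.sub (hf.const_mul (2 * m)))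
        intervalIntegrable_const, intervalIntegral.integral_sub hf2 (hf.const_mul (2 * m)),
      intervalIntegral.integral_const_mul, intervalIntegral.integral_const, ← hm]
    simp
    ring
  rw [e] at h0
  rw [← hm]
  linarith

theorem mean_window_le {g : ℝ → ℝ} {a b : ℝ} (hab : a ≤ b) (hg : ContinuousOn g (Icc a (b + 1)))
    (hg0 : ∀ t ∈ Icc a (b + 1), 0 ≤ g t) :
    ∫ t in a..b, (∫ s in t..(t + 1), g s) ≤ ∫ s in a..(b + 1), g s := by
  obtain ⟨P, hP⟩ : ∃ P : ℝ → ℝ, P = fun t => ∫ s in a..t, g s := ⟨_, rfl⟩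
  have hi : ∀ p q, p ∈ Icc a (b + 1) → q ∈ Icc a (b + 1) → IntervalIntegrable g volume p q :=
    fun p q hp hq => (hg.mono (uIcc_subset_Icc hp hq)).intervalIntegrable
  have ha : a ∈ Icc a (b + 1) := ⟨le_rfl, by linarith⟩
  have hb : b + 1 ∈ Icc a (b + 1) := ⟨by linarith, le_rfl⟩
  have hPc : ContinuousOn P (Icc a (b + 1)) := by
    have := intervalIntegral.continuousOn_primitive_interval'
      (hi a (b + 1) ha hb) left_mem_uIcc
    rwa [uIcc_of_le (by linarith), ← hP] at this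
  have hPi : ∀ p q, p ∈ Icc a (b + 1) → q ∈ Icc a (b + 1) → IntervalIntegrable P volume p q :=
    fun p q hp hq => (hPc.mono (uIcc_subset_Icc hp hq)).intervalIntegrable
  have hmono : ∀ t ∈ Icc a (b + 1), 0 ≤ P t ∧ P t ≤ P (b + 1) := fun t ht => by
    rw [hP]
    simp only
    refine ⟨intervalIntegral.integral_nonneg ht.1 fun s hs => hg0 s ⟨hs.1, hs.2.trans ht.2⟩, ?_⟩
    rw [← intervalIntegral.integral_add_adjacent_intervals (hi a t ha ht) (hi t (b + 1) ht hb)]
    exact le_add_of_nonneg_right (intervalIntegral.integral_nonneg ht.2 fun s hs =>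
      hg0 s ⟨ht.1.trans hs.1, hs.2⟩)
  have hshift : IntervalIntegrable (fun t => P (t + 1)) volume a b := by
    refine ContinuousOn.intervalIntegrable ?_
    rw [uIcc_of_le hab]
    exact hPc.comp (by fun_prop) fun t ht => ⟨by linarith [ht.1], by linarith [ht.2]⟩
  have e : ∫ t in a..b, (∫ s in t..(t + 1), g s) =
      (∫ t in (a + 1)..(b + 1), P t) - ∫ t in a..b, P t := by
    rw [← intervalIntegral.integral_comp_add_right P 1,
      ← intervalIntegral.integral_sub hshift (hPi a b ha ⟨hab, by linarith⟩)]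
    refine intervalIntegral.integral_congr fun t ht => ?_
    rw [uIcc_of_le hab] at ht
    rw [hP]
    exact (intervalIntegral.integral_interval_sub_left
      (hi a (t + 1) ha ⟨by linarith [ht.1], by linarith [ht.2]⟩)
      (hi a t ha ⟨ht.1, by linarith [ht.2]⟩)).symm
  have ha1 : a + 1 ∈ Icc a (b + 1) := ⟨by linarith, by linarith⟩
  have hb' : b ∈ Icc a (b + 1) := ⟨hab, by linarith⟩
  have h1 : (∫ t in (a + 1)..(b + 1), P t) - ∫ t in a..b, P t =
      (∫ t in b..(b + 1), P t) - ∫ t in a..(a + 1), P t := by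
    linarith [intervalIntegral.integral_add_adjacent_intervals (hPi a b ha hb')
      (hPi b (b + 1) hb' hb), intervalIntegral.integral_add_adjacent_intervals
        (hPi a (a + 1) ha ha1) (hPi (a + 1) (b + 1) ha1 hb)]
  have h2 : ∫ t in b..(b + 1), P t ≤ P (b + 1) := by
    refine (intervalIntegral.integral_mono_on (μ := volume) (by linarith) (hPi b (b + 1) hb' hb)
      (intervalIntegrable_const (c := P (b + 1))) fun t ht =>
        (hmono t ⟨hab.trans ht.1, ht.2⟩).2).trans (le_of_eq ?_)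
    simp
  have h3 : 0 ≤ ∫ t in a..(a + 1), P t := intervalIntegral.integral_nonneg (by linarith)
    fun t ht => (hmono t ⟨ht.1, ht.2.trans (by linarith)⟩).1
  rw [e, h1]
  rw [hP] at h2 h3 ⊢
  linarith

/-- The zeros up to height `N`. -/
def lowZeros (K : Type u) [Field K] [NumberField K] (N : ℝ) : Finset ℂ :=
  (finite_stripZeros K N).toFinset

/-- The zeros with height in `(N, Y]`. -/
def midZeros (K : Type u) [Field K] [NumberField K] (N Y : ℝ) : Finset ℂ :=
  ((finite_stripZeros K Y).toFinset).filter fun ρ => N < |ρ.im|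

/-- The zeros of a set in the unit step of the moment at `t`. -/
def zeroStep (K : Type u) [Field K] [NumberField K] (S : Finset ℂ) (t : ℝ) : ℂ :=
  ∑ ρ ∈ S, (xiMult K ρ : ℂ) * (rawKer (t + 1) ρ - rawKer t ρ)

theorem zero_facts {K : Type u} [Field K] [NumberField K] (hRH : FieldRH K) {ρ : ℂ}
    (h : xiFun K ρ = 0) : ρ.re = 1 / 2 ∧ 1 / 2 ≤ ‖ρ‖ ∧ 1 / 2 ≤ ‖ρ + 1‖ := by
  have hz := zerosLeftOf_of_RH K hRH
  have h1 := hz ρ h
  have h2 := hz.one_sub_le h
  exact ⟨le_antisymm h1 (by linarith), le_trans (by linarith) (Complex.re_le_norm ρ),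
    le_trans (by rw [add_re, one_re]; linarith) (re_le_norm _)⟩

theorem continuousOn_zeroStep (K : Type u) [Field K] [NumberField K] (S : Finset ℂ) :
    ContinuousOn (zeroStep K S) (Ioi 0) := by
  refine continuousOn_finsetSum _ fun ρ _ => continuousOn_const.mul ?_
  have h : ∀ c : ℝ, 0 ≤ c → ContinuousOn (fun t : ℝ => rawKer (t + c) ρ) (Ioi 0) := fun c hc t ht =>
    ((ContinuousAt.comp' (g := fun v : ℝ => (v : ℂ) ^ (ρ + 1)) (f := fun v : ℝ => v + c)
      (continuousAt_ofReal_cpow_const _ _ (Or.inr (add_pos_of_pos_of_nonneg ht hc).ne'))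
        (by fun_prop)).div_const _).continuousWithinAt
  simpa only [add_zero, Pi.sub_def] using (h 1 zero_le_one).sub (h 0 le_rfl)

/-- **The unit step is a finite sum over the zeros and `O (F √X)`.** -/
theorem exists_step_split : ∃ C, 0 ≤ C ∧ ∀ (K : Type u) [Field K] [NumberField K], FieldRH K →
    ∀ X : ℝ, 2 ≤ X → ∀ t : ℝ, X / 2 ≤ t → t ≤ 2 * X →
      |momentSum (mangoldtK K) (t + 1) - momentSum (mangoldtK K) t - t| ≤
        ‖zeroStep K (lowZeros K X) t‖ + ‖zeroStep K (midZeros K X (X ^ 3 + 1)) t‖ +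
          C * fieldSize K * √X := by
  obtain ⟨Cc, hCc, hcoef⟩ := exists_norm_linCoef.{u}
  obtain ⟨Cl, hCl, hleft⟩ := exists_norm_leftInt.{u}
  obtain ⟨Ct, hCt, htail⟩ := exists_tail_sum.{u}
  refine ⟨1944 * Ct + 6 * Cc + 6 * Cl + 9, by positivity,
    fun K _ _ hRH X hX t ht1 ht2 => ?_⟩
  obtain ⟨hF1, hFn⟩ := one_le_fieldSize (K := K)
  have hX0 : 0 < X := by linarith
  have ht : 1 ≤ t := by linarith
  have hsX : 1 ≤ √X := Real.one_le_sqrt.2 (by linarith)
  have hs : ∀ z, z ≤ 3 * X → √z ≤ 2 * √X := fun z hz => by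
    refine (Real.sqrt_le_sqrt (show z ≤ 2 ^ 2 * X by linarith)).trans (le_of_eq ?_)
    rw [Real.sqrt_mul (by norm_num), Real.sqrt_sq (by norm_num)]
  have hFX : fieldSize K ≤ fieldSize K * √X := le_mul_of_one_le_right (by linarith) hsX
  have c1 : ‖linCoef K‖ ≤ 6 * Cc * (fieldSize K * √X) := by
    refine (hcoef K (1 / 2) le_rfl (by norm_num) (zerosLeftOf_of_RH K hRH)).trans ?_
    have h0 : height K 0 ≤ 3 * fieldSize K := by
      have h3 : Real.log 3 ≤ 2 := by
        linarith [Real.log_le_sub_one_of_pos (show (0 : ℝ) < 3 by norm_num)]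
      have := mul_le_mul_of_nonneg_left h3 (Nat.cast_nonneg (finrank ℚ K) : (0 : ℝ) ≤ _)
      have := Real.log_nonneg (Nat.one_le_cast.2 (Int.natAbs_pos.2 (discr_ne_zero K)) :
        (1 : ℝ) ≤ (((discr K).natAbs : ℕ) : ℝ))
      rw [height, abs_zero, zero_add, fieldSize]
      linarith
    norm_num
    linarith [mul_le_mul_of_nonneg_left (h0.trans (mul_le_mul_of_nonneg_left hFX (by norm_num)))
      hCc]
  have l1 : ‖leftInt K (t + 1) - leftInt K t‖ ≤ 4 * Cl * (fieldSize K * √X) := by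
    have := mul_le_mul_of_nonneg_left (hs (t + 1) (by linarith))
      (mul_nonneg hCl (by linarith : (0 : ℝ) ≤ fieldSize K))
    have := mul_le_mul_of_nonneg_left (hs t (by linarith))
      (mul_nonneg hCl (by linarith : (0 : ℝ) ≤ fieldSize K))
    linarith [norm_sub_le (leftInt K (t + 1)) (leftInt K t), hleft K (t + 1) (by linarith),
      hleft K t (by linarith)]
  have u1 : |unitCount K| * |(t + 1) * Real.log (t + 1) - t * Real.log t| ≤
      5 * (fieldSize K * √X) := by
    have h4 : Real.log (t + 1) + 1 ≤ 5 * √X := by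
      have := Real.log_le_sub_one_of_pos (Real.sqrt_pos.2 (show 0 < t + 1 by linarith))
      rw [Real.log_sqrt (by linarith)] at this
      linarith [hs (t + 1) (by linarith)]
    refine (mul_le_mul ((abs_unitCount_le K).trans hFn) ((mul_log_step_le ht).trans h4)
      (abs_nonneg _) (by linarith)).trans (le_of_eq ?_)
    ring
  obtain ⟨Y, hY⟩ : ∃ Y, Y = X ^ 3 + 1 := ⟨_, rfl⟩
  rw [← hY]
  have hX3 : X ≤ X ^ 3 := le_self_pow₀ (by linarith) (by norm_num)
  obtain ⟨f, hf⟩ : ∃ f : ℂ → ℂ, f = fun ρ =>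
      (xiMult K ρ : ℂ) * (rawKer (t + 1) ρ - rawKer t ρ) := ⟨_, rfl⟩
  have hsum : HasSum f ((∑' ρ, (xiMult K ρ : ℂ) * rawKer (t + 1) ρ) -
      ∑' ρ, (xiMult K ρ : ℂ) * rawKer t ρ) :=
    ((summable_rawKer K (show 1 ≤ t + 1 by linarith)).of_norm.hasSum.sub
      (summable_rawKer K ht).of_norm.hasSum).congr_fun fun ρ => by rw [hf]; ring
  have hlow : zeroStep K (lowZeros K X) t + zeroStep K (midZeros K X Y) t =
      ∑ ρ ∈ lowZeros K Y, f ρ := by
    rw [hf, ← Finset.sum_filter_add_sum_filter_not (lowZeros K Y) (fun ρ : ℂ => |ρ.im| ≤ X)]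
    congr 1
    · refine Finset.sum_congr ?_ fun _ _ => rfl
      ext ρ
      simp only [lowZeros, Finset.mem_filter, Set.Finite.mem_toFinset, mem_stripZeros_iff]
      exact ⟨fun h => ⟨⟨h.1, h.2.trans (by linarith)⟩, h.2⟩, fun h => ⟨h.1.1, h.2⟩⟩
    · refine Finset.sum_congr ?_ fun _ _ => rfl
      simp only [midZeros, lowZeros, not_le]
  have hrest : ‖(∑' ρ, f ρ) - ∑ ρ ∈ lowZeros K Y, f ρ‖ ≤ 1944 * Ct * (fieldSize K * √X) := by
    rw [← hsum.summable.sum_add_tsum_subtype_compl (lowZeros K Y), add_sub_cancel_left]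
    refine (norm_tsum_le_tsum_norm ((hsum.summable.norm).subtype _)).trans
      (Real.tsum_le_of_sum_le (fun ρ => norm_nonneg _) fun S => ?_)
    obtain ⟨N, hN⟩ : ∃ N : ℕ, N = ⌊Y⌋₊ := ⟨_, rfl⟩
    have hN1 : (N : ℝ) ≤ Y := hN ▸ Nat.floor_le (by linarith)
    have hN2 : Y < (N : ℝ) + 1 := hN ▸ Nat.lt_floor_add_one Y
    obtain ⟨S', hS'⟩ : ∃ S' : Finset ℂ, S' = (S.map (Function.Embedding.subtype _)).filter
        fun ρ => xiMult K ρ ≠ 0 := ⟨_, rfl⟩
    have hmem : ∀ ρ ∈ S', xiFun K ρ = 0 ∧ Y < |ρ.im| := fun ρ hρ => by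
      rw [hS', Finset.mem_filter, Finset.mem_map] at hρ
      obtain ⟨⟨⟨a, ha⟩, -, rfl⟩, hm⟩ := hρ
      have h0 := (strip_of_mult K hm).1
      refine ⟨h0, lt_of_not_ge fun hle => ha ?_⟩
      rw [lowZeros, Set.Finite.mem_toFinset, mem_stripZeros_iff]
      exact ⟨h0, hle⟩
    calc ∑ ρ ∈ S, ‖f ↑ρ‖ = ∑ ρ ∈ S', ‖f ρ‖ := by
          rw [hS', Finset.sum_filter_of_ne (p := fun ρ => xiMult K ρ ≠ 0)
              fun ρ _ hne hm => hne (by simp [hf, hm]),
            Finset.sum_map]
          rfl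
      _ ≤ ∑ ρ ∈ S', 18 * ((3 * X) * √(3 * X)) * ((xiMult K ρ : ℝ) / (1 + |ρ.im|) ^ 2) := by
          refine Finset.sum_le_sum fun ρ hρ => ?_
          obtain ⟨hre, g0, g1⟩ := zero_facts hRH (hmem ρ hρ).1
          rw [hf, show 18 * ((3 * X) * √(3 * X)) * ((xiMult K ρ : ℝ) / (1 + |ρ.im|) ^ 2) =
            xiMult K ρ * (9 * ((3 * X) * √(3 * X)) / (1 + |ρ.im|) ^ 2 +
              9 * ((3 * X) * √(3 * X)) / (1 + |ρ.im|) ^ 2) by ring]
          simp only [norm_mul, Complex.norm_natCast]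
          refine mul_le_mul_of_nonneg_left ((norm_sub_le _ _).trans ?_) (Nat.cast_nonneg _)
          have k : ∀ z, 0 < z → z ≤ 3 * X →
              ‖rawKer z ρ‖ ≤ 9 * ((3 * X) * √(3 * X)) / (1 + |ρ.im|) ^ 2 := fun z hz hz3 => by
            refine (norm_rawKer_le g0 g1 hz).trans (div_le_div_of_nonneg_right
              (mul_le_mul_of_nonneg_left ?_ (by norm_num)) (by positivity))
            rw [hre, Real.rpow_add_one hz.ne', ← Real.sqrt_eq_rpow, mul_comm]
            exact mul_le_mul hz3 (Real.sqrt_le_sqrt hz3) (Real.sqrt_nonneg z) (by linarith)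
          exact add_le_add (k _ (by linarith) (by linarith)) (k t (by linarith) (by linarith))
      _ ≤ 18 * ((3 * X) * √(3 * X)) * (Ct * height K N / ((N : ℝ) + 1)) := by
          rw [← Finset.mul_sum]
          exact mul_le_mul_of_nonneg_left (htail K N _ fun ρ hρ =>
            hN1.trans (hmem ρ hρ).2.le) (by positivity)
      _ ≤ _ := by
          have hb := height_le_rpow (K := K) (κ := 1 / 4) (by norm_num) (by norm_num) (N : ℝ)
          rw [Nat.abs_cast, add_comm (1 : ℝ)] at hb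
          obtain ⟨q, hq⟩ : ∃ q, q = ((N : ℝ) + 1) ^ (1 / 4 : ℝ) := ⟨_, rfl⟩
          have hq0 : 0 < q := hq ▸ by positivity
          have hq4 : q ^ 4 = (N : ℝ) + 1 := by
            rw [hq, ← Real.rpow_natCast _ 4, ← Real.rpow_mul (by positivity)]
            norm_num
          have hqX : X ≤ q ^ 3 := by
            refine le_of_pow_le_pow_left₀ (by norm_num : (4 : ℕ) ≠ 0) (by positivity) ?_
            calc X ^ 4 ≤ (X ^ 3) ^ 3 := by
                  rw [← pow_mul]; exact pow_le_pow_right₀ (by linarith) (by norm_num)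
              _ ≤ ((N : ℝ) + 1) ^ 3 := pow_le_pow_left₀ (by positivity) (by linarith) 3
              _ = _ := by rw [← hq4, ← pow_mul, ← pow_mul]
          rw [← hq] at hb
          have e1 : Ct * height K N / ((N : ℝ) + 1) ≤ 12 * Ct * fieldSize K / X := by
            refine (div_le_div_of_nonneg_right (mul_le_mul_of_nonneg_left hb hCt)
              (by positivity)).trans ?_
            rw [show Ct * (fieldSize K * (3 / (1 / 4)) * q) / ((N : ℝ) + 1) =
              12 * Ct * fieldSize K / q ^ 3 by rw [← hq4]; field_simp; ring]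
            exact div_le_div_of_nonneg_left (by positivity) hX0 hqX
          refine (mul_le_mul_of_nonneg_left e1 (by positivity)).trans ?_
          rw [show 18 * ((3 * X) * √(3 * X)) * (12 * Ct * fieldSize K / X) =
            648 * Ct * fieldSize K * √(3 * X) by field_simp; ring]
          have := mul_le_mul_of_nonneg_left (hs (3 * X) le_rfl)
            (show 0 ≤ 648 * Ct * fieldSize K by positivity)
          have : 0 ≤ Ct * fieldSize K * √X := by positivity
          linarith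
  have e : ((momentSum (mangoldtK K) (t + 1) - momentSum (mangoldtK K) t - t : ℝ) : ℂ) =
      ((1 / 2 : ℝ) : ℂ) + linCoef K -
        ((unitCount K * ((t + 1) * Real.log (t + 1) - t * Real.log t) : ℝ) : ℂ) -
          ∑' ρ, f ρ + (leftInt K (t + 1) - leftInt K t) := by
    rw [hsum.tsum_eq]
    push_cast [momentSum_eq K ht, momentSum_eq K (show 1 ≤ t + 1 by linarith)]
    ring
  have hn := congrArg (fun z : ℂ => ‖z‖) e
  simp only [Complex.norm_real, Real.norm_eq_abs] at hn
  have z1 : ‖∑' ρ, f ρ‖ ≤ ‖zeroStep K (lowZeros K X) t‖ + ‖zeroStep K (midZeros K X Y) t‖ +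
      1944 * Ct * (fieldSize K * √X) := by
    linarith [norm_le_norm_add_norm_sub' (∑' ρ, f ρ) (∑ ρ ∈ lowZeros K Y, f ρ),
      hlow ▸ norm_add_le (zeroStep K (lowZeros K X) t) (zeroStep K (midZeros K X Y) t)]
  rw [hn]
  refine (norm_add_le _ _).trans ((add_le_add ((norm_sub_le _ _).trans (add_le_add
    ((norm_sub_le _ _).trans (add_le_add (norm_add_le _ _) le_rfl)) z1)) l1).trans ?_)
  simp only [Complex.norm_real, Real.norm_eq_abs, abs_mul]
  rw [abs_of_pos (show (0 : ℝ) < 1 / 2 by norm_num)]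
  have : 0 ≤ Cl * (fieldSize K * √X) := by positivity
  linarith

/-- **The mean square of the low zeros.** -/
theorem exists_low_mean : ∃ C, 0 ≤ C ∧ ∀ (K : Type u) [Field K] [NumberField K], FieldRH K →
    ∀ X : ℝ, 2 ≤ X → ∫ t in (X / 2)..(2 * X), ‖zeroStep K (lowZeros K X) t‖ ^ 2 ≤
      C * X ^ 2 * fieldSize K ^ 2 := by
  obtain ⟨Cp, hCp, hpow⟩ := exists_power_mean.{u}
  obtain ⟨Cw, hCw, hwt⟩ := exists_weighted_sum.{u}
  refine ⟨81 * Cp * Cw, by positivity, fun K _ _ hRH X hX => ?_⟩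
  obtain ⟨S, hS⟩ : ∃ S, S = lowZeros K X := ⟨_, rfl⟩
  rw [← hS]
  have hzero : ∀ ρ ∈ S, xiFun K ρ = 0 := fun ρ hρ => by
    rw [hS, lowZeros, Set.Finite.mem_toFinset, mem_stripZeros_iff] at hρ
    exact hρ.1
  obtain ⟨A, hA⟩ : ∃ A : ℝ → ℂ, A = fun v : ℝ =>
      ∑ ρ ∈ S, (xiMult K ρ : ℂ) * ρ⁻¹ * (v : ℂ) ^ (ρ + (0 : ℕ)) := ⟨_, rfl⟩
  have hAc : ContinuousOn A (Ioi 0) := by
    rw [hA]
    exact continuousOn_finsetSum _ fun ρ _ => continuousOn_const.mul fun v hv =>
      (continuousAt_ofReal_cpow_const _ _ (Or.inr (ne_of_gt hv))).continuousWithinAt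
  have hsub : Icc (X / 2) (2 * X + 1) ⊆ Ioi 0 := fun v hv => lt_of_lt_of_le (by linarith) hv.1
  have hstep : ∀ t ∈ Icc (X / 2) (2 * X),
      ‖zeroStep K S t‖ ^ 2 ≤ ∫ v in t..(t + 1), ‖A v‖ ^ 2 := fun t ht => by
    have hc : ContinuousOn A (uIcc t (t + 1)) := hAc.mono fun v hv => by
      rw [uIcc_of_le (by linarith)] at hv
      exact lt_of_lt_of_le (by linarith [ht.1]) hv.1
    have e : zeroStep K S t = ∫ v in t..(t + 1), A v := by
      rw [hA, intervalIntegral.integral_finsetSum fun ρ hρ => ?_]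
      · refine Finset.sum_congr rfl fun ρ hρ => ?_
        rw [intervalIntegral.integral_const_mul, rawKer_diff_eq
          (by rw [(zero_facts hRH (hzero ρ hρ)).1]; norm_num)]
        simp only [Nat.cast_zero, add_zero]
        ring
      · refine (continuousOn_const.mul fun v hv => ?_).intervalIntegrable
        rw [uIcc_of_le (by linarith)] at hv
        exact (continuousAt_ofReal_cpow_const _ _
          (Or.inr (by linarith [ht.1, hv.1]))).continuousWithinAt
    rw [e]
    refine (pow_le_pow_left₀ (norm_nonneg _)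
      (intervalIntegral.norm_integral_le_integral_norm (by linarith)) 2).trans ?_
    exact sq_integral_unit_le hc.norm.intervalIntegrable (hc.norm.pow 2).intervalIntegrable
  have hg : ContinuousOn (fun v => ‖A v‖ ^ 2) (Icc (X / 2) (2 * X + 1)) :=
    (hAc.mono hsub).norm.pow 2
  have hab : X / 2 ≤ 2 * X := by linarith
  have i1 : IntervalIntegrable (fun t => ‖zeroStep K S t‖ ^ 2) volume (X / 2) (2 * X) := by
    refine (((continuousOn_zeroStep K S).mono ?_).norm.pow 2).intervalIntegrable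
    rw [uIcc_of_le hab]
    exact fun v hv => hsub ⟨hv.1, hv.2.trans (by linarith)⟩
  have i2 : IntervalIntegrable (fun t => ∫ v in t..(t + 1), ‖A v‖ ^ 2) volume (X / 2) (2 * X) := by
    have hi := hg.intervalIntegrable_of_Icc (μ := volume) (by linarith : X / 2 ≤ 2 * X + 1)
    have hc := intervalIntegral.continuousOn_primitive_interval' hi left_mem_uIcc
    rw [uIcc_of_le (by linarith)] at hc
    refine ContinuousOn.intervalIntegrable ?_
    rw [uIcc_of_le hab]
    refine ((hc.comp (f := fun t => t + 1) (by fun_prop) fun t ht =>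
      ⟨by linarith [ht.1], by linarith [ht.2]⟩).sub (hc.mono fun t ht =>
        ⟨ht.1, ht.2.trans (by linarith)⟩)).congr fun t ht => ?_
    have hp : ∀ q ∈ Icc (X / 2) (2 * X + 1),
        IntervalIntegrable (fun v => ‖A v‖ ^ 2) volume (X / 2) q := fun q hq =>
      (hg.mono (Icc_subset_Icc le_rfl hq.2)).intervalIntegrable_of_Icc hq.1
    exact (intervalIntegral.integral_interval_sub_left
      (hp (t + 1) ⟨by linarith [ht.1], by linarith [ht.2]⟩)
      (hp t ⟨ht.1, by linarith [ht.2]⟩)).symm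
  refine (intervalIntegral.integral_mono_on (μ := volume) hab i1 i2 hstep).trans
    ((mean_window_le hab hg fun v _ => sq_nonneg _).trans ?_)
  have hm := hpow K S (fun ρ => ρ⁻¹) 0 X (by linarith)
    fun ρ hρ => (zero_facts hRH (hzero ρ hρ)).1
  have e2 : ∫ t in (X / 2)..(3 * X),
      ‖∑ ρ ∈ S, (xiMult K ρ : ℂ) * ρ⁻¹ * (t : ℂ) ^ (ρ + (0 : ℕ))‖ ^ 2 =
      ∫ t in (X / 2)..(3 * X), ‖A t‖ ^ 2 := by rw [hA]
  rw [e2] at hm
  refine le_trans ?_ (le_trans hm ?_)
  · refine intervalIntegral.integral_mono_interval le_rfl (by linarith) (by linarith)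
      (Filter.Eventually.of_forall fun v => sq_nonneg _) ?_
    refine ((hAc.mono fun v hv => ?_).norm.pow 2).intervalIntegrable
    rw [uIcc_of_le (by linarith)] at hv
    exact lt_of_lt_of_le (by linarith) hv.1
  · have h1 : ∑ ρ ∈ S, (xiMult K ρ : ℝ) * ‖ρ⁻¹‖ ^ 2 * height K ρ.im ≤
        9 * (Cw * fieldSize K ^ 2) := by
      refine (Finset.sum_le_sum (g := fun ρ =>
        9 * ((xiMult K ρ : ℝ) * height K ρ.im / (1 + |ρ.im|) ^ 2)) fun ρ hρ => ?_).trans ?_
      · have hn := one_add_im_le_norm (zero_facts hRH (hzero ρ hρ)).2.1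
        have h0 : 0 < ‖ρ‖ := by linarith [abs_nonneg ρ.im]
        have hh := zero_le_one.trans (one_le_height K ρ.im)
        rw [show 9 * ((xiMult K ρ : ℝ) * height K ρ.im / (1 + |ρ.im|) ^ 2) =
          xiMult K ρ * (3 / (1 + |ρ.im|)) ^ 2 * height K ρ.im by rw [div_pow]; ring, norm_inv]
        gcongr
        rw [← one_div, div_le_div_iff₀ h0 (by positivity)]
        linarith
      · rw [← Finset.mul_sum]
        exact mul_le_mul_of_nonneg_left (hwt K S) (by norm_num)
    refine (mul_le_mul_of_nonneg_left h1 (by positivity)).trans (le_of_eq ?_)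
    ring

/-- **The mean square of the high zeros.** -/
theorem exists_mid_mean : ∃ C, 0 ≤ C ∧ ∀ (K : Type u) [Field K] [NumberField K], FieldRH K →
    ∀ X Y : ℝ, 2 ≤ X → ∫ t in (X / 2)..(2 * X), ‖zeroStep K (midZeros K X Y) t‖ ^ 2 ≤
      C * X ^ 2 * fieldSize K ^ 2 := by
  obtain ⟨Cp, hCp, hpow⟩ := exists_power_mean.{u}
  obtain ⟨Cw, hCw, hwt⟩ := exists_weighted_sum.{u}
  refine ⟨26244 * Cp * Cw, by positivity, fun K _ _ hRH X Y hX => ?_⟩
  obtain ⟨S, hS⟩ : ∃ S, S = midZeros K X Y := ⟨_, rfl⟩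
  rw [← hS]
  have hzero : ∀ ρ ∈ S, xiFun K ρ = 0 ∧ X < |ρ.im| := fun ρ hρ => by
    rw [hS, midZeros, Finset.mem_filter, Set.Finite.mem_toFinset, mem_stripZeros_iff] at hρ
    exact ⟨hρ.1.1, hρ.2⟩
  obtain ⟨B, hB⟩ : ∃ B : ℝ → ℂ, B = fun v : ℝ =>
      ∑ ρ ∈ S, (xiMult K ρ : ℂ) * (1 / (ρ * (ρ + 1))) * (v : ℂ) ^ (ρ + (1 : ℕ)) := ⟨_, rfl⟩
  have e : ∀ t, zeroStep K S t = B (t + 1) - B t := fun t => by
    rw [hB, zeroStep]
    simp only
    rw [← Finset.sum_sub_distrib]
    refine Finset.sum_congr rfl fun ρ _ => ?_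
    rw [rawKer, rawKer, Nat.cast_one]
    ring
  have hBc : ContinuousOn (fun v => ‖B v‖ ^ 2) (Icc (X / 2) (3 * X)) := by
    rw [hB]
    exact ((continuousOn_finsetSum _ fun ρ _ => continuousOn_const.mul fun v hv =>
      (continuousAt_ofReal_cpow_const _ _
        (Or.inr (by linarith [hv.1]))).continuousWithinAt).norm).pow 2
  have hm := hpow K S (fun ρ => 1 / (ρ * (ρ + 1))) 1 X (by linarith)
    fun ρ hρ => (zero_facts hRH (hzero ρ hρ).1).1
  have e2 : ∫ t in (X / 2)..(3 * X),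
      ‖∑ ρ ∈ S, (xiMult K ρ : ℂ) * (1 / (ρ * (ρ + 1))) * (t : ℂ) ^ (ρ + (1 : ℕ))‖ ^ 2 =
      ∫ t in (X / 2)..(3 * X), ‖B t‖ ^ 2 := by rw [hB]
  rw [e2] at hm
  have hab : X / 2 ≤ 2 * X := by linarith
  have i1 : IntervalIntegrable (fun t => ‖B t‖ ^ 2) volume (X / 2) (2 * X) :=
    (hBc.mono (Icc_subset_Icc le_rfl (by linarith))).intervalIntegrable_of_Icc hab
  have i2 : IntervalIntegrable (fun t => ‖B (t + 1)‖ ^ 2) volume (X / 2) (2 * X) :=
    (hBc.comp (f := fun t => t + 1) (by fun_prop) fun t ht =>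
      ⟨by linarith [ht.1], by linarith [ht.2]⟩).intervalIntegrable_of_Icc hab
  have i3 : IntervalIntegrable (fun t => ‖zeroStep K S t‖ ^ 2) volume (X / 2) (2 * X) :=
    (((continuousOn_zeroStep K S).mono fun v hv =>
      lt_of_lt_of_le (by linarith) hv.1).norm.pow 2).intervalIntegrable_of_Icc hab
  have hle : ∀ a b : ℝ, X / 2 ≤ a → a ≤ b → b ≤ 3 * X →
      ∫ t in a..b, ‖B t‖ ^ 2 ≤ ∫ t in (X / 2)..(3 * X), ‖B t‖ ^ 2 := fun a b h1 h2 h3 =>
    intervalIntegral.integral_mono_interval h1 h2 h3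
      (Filter.Eventually.of_forall fun v => sq_nonneg _)
      (hBc.intervalIntegrable_of_Icc (by linarith))
  have hsum : ∫ t in (X / 2)..(2 * X), ‖zeroStep K S t‖ ^ 2 ≤
      2 * (∫ t in (X / 2)..(2 * X), ‖B (t + 1)‖ ^ 2) +
        2 * ∫ t in (X / 2)..(2 * X), ‖B t‖ ^ 2 := by
    rw [← intervalIntegral.integral_const_mul, ← intervalIntegral.integral_const_mul,
      ← intervalIntegral.integral_add (i2.const_mul 2) (i1.const_mul 2)]
    refine intervalIntegral.integral_mono_on (μ := volume) hab i3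
      ((i2.const_mul 2).add (i1.const_mul 2)) fun t _ => ?_
    rw [e]
    nlinarith [norm_sub_le (B (t + 1)) (B t), norm_nonneg (B (t + 1) - B t),
      sq_nonneg (‖B (t + 1)‖ - ‖B t‖)]
  rw [intervalIntegral.integral_comp_add_right (fun v => ‖B v‖ ^ 2) 1] at hsum
  have h1 : ∑ ρ ∈ S, (xiMult K ρ : ℝ) * ‖1 / (ρ * (ρ + 1))‖ ^ 2 * height K ρ.im ≤
      81 / X ^ 2 * (Cw * fieldSize K ^ 2) := by
    refine (Finset.sum_le_sum (g := fun ρ =>
      81 / X ^ 2 * ((xiMult K ρ : ℝ) * height K ρ.im / (1 + |ρ.im|) ^ 2)) fun ρ hρ => ?_).trans ?_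
    · obtain ⟨hρ0, hρX⟩ := hzero ρ hρ
      obtain ⟨-, g0, g1⟩ := zero_facts hRH hρ0
      have a1 := one_add_im_le_norm g0
      have a2 := one_add_im_le_norm g1
      rw [show (ρ + 1).im = ρ.im by simp] at a2
      have hh := zero_le_one.trans (one_le_height K ρ.im)
      have hb : ‖1 / (ρ * (ρ + 1))‖ ≤ 9 / (X * (1 + |ρ.im|)) := by
        rw [norm_div, norm_one, norm_mul,
          div_le_div_iff₀ (mul_pos (by linarith) (by linarith)) (by positivity), one_mul,
          show 9 * (‖ρ‖ * ‖ρ + 1‖) = (3 * ‖ρ‖) * (3 * ‖ρ + 1‖) by ring]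
        exact mul_le_mul (by linarith) a2 (by positivity) (by linarith)
      rw [show 81 / X ^ 2 * ((xiMult K ρ : ℝ) * height K ρ.im / (1 + |ρ.im|) ^ 2) =
        xiMult K ρ * (9 / (X * (1 + |ρ.im|))) ^ 2 * height K ρ.im by
          have : 1 + |ρ.im| ≠ 0 := by positivity
          field_simp
          ring]
      gcongr
    · rw [← Finset.mul_sum]
      exact mul_le_mul_of_nonneg_left (hwt K S) (by positivity)
  have hm2 := hm.trans (mul_le_mul_of_nonneg_left h1 (by positivity))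
  rw [show Cp * (3 * X) ^ (2 * 1 + 2) * (81 / X ^ 2 * (Cw * fieldSize K ^ 2)) =
    6561 * Cp * Cw * X ^ 2 * fieldSize K ^ 2 by
      rw [show 2 * 1 + 2 = 4 from rfl]
      field_simp
      ring] at hm2
  linarith [hle (X / 2 + 1) (2 * X + 1) (by linarith) (by linarith) (by linarith),
    hle (X / 2) (2 * X) le_rfl hab (by linarith)]

/-- **Cramér's mean square.** -/
theorem exists_psi_mean_square : ∃ A, 0 ≤ A ∧ ∀ (K : Type u) [Field K] [NumberField K],
    FieldRH K → ∀ X : ℝ, 2 ≤ X → ∫ t in X..(2 * X), (psiK K t - t) ^ 2 ≤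
      A * X ^ 2 * fieldSize K ^ 2 := by
  obtain ⟨C, hC, hsplit⟩ := exists_step_split.{u}
  obtain ⟨C1, hC1, hlow⟩ := exists_low_mean.{u}
  obtain ⟨C2, hC2, hmid⟩ := exists_mid_mean.{u}
  refine ⟨2 * (6 * (C1 + C2 + 2 * C ^ 2)) + 2, by positivity, fun K _ _ hRH X hX => ?_⟩
  obtain ⟨hF1, -⟩ := one_le_fieldSize (K := K)
  obtain ⟨M, hM⟩ : ∃ M : ℝ → ℝ, M = fun t => 6 * (‖zeroStep K (lowZeros K X) t‖ ^ 2 +
      ‖zeroStep K (midZeros K X (X ^ 3 + 1)) t‖ ^ 2 + C ^ 2 * fieldSize K ^ 2 * X) := ⟨_, rfl⟩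
  have hM0 : ∀ t, 0 ≤ M t := fun t => by rw [hM]; positivity
  have hMb : ∀ t, X / 2 ≤ t → t ≤ 2 * X →
      2 * (momentSum (mangoldtK K) (t + 1) - momentSum (mangoldtK K) t - t) ^ 2 ≤ M t :=
    fun t h1 h2 => by
    obtain ⟨h3, h4⟩ := abs_le.1 (hsplit K hRH X hX t h1 h2)
    have hsq : √X * √X = X := Real.mul_self_sqrt (by linarith)
    obtain ⟨p, hp⟩ : ∃ p, p = ‖zeroStep K (lowZeros K X) t‖ := ⟨_, rfl⟩
    obtain ⟨q, hq⟩ : ∃ q, q = ‖zeroStep K (midZeros K X (X ^ 3 + 1)) t‖ := ⟨_, rfl⟩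
    obtain ⟨r, hr⟩ : ∃ r, r = C * fieldSize K * √X := ⟨_, rfl⟩
    have hr2 : r ^ 2 = C ^ 2 * fieldSize K ^ 2 * X := by
      linear_combination (r + C * fieldSize K * √X) * hr + C ^ 2 * fieldSize K ^ 2 * hsq
    rw [hM]
    simp only
    rw [← hp, ← hq, ← hr2]
    rw [← hp, ← hq, ← hr] at h3 h4
    nlinarith [sq_nonneg (p - q), sq_nonneg (q - r), sq_nonneg (p - r)]
  have hMc : ContinuousOn M (Icc (X / 2) (2 * X)) := by
    have hsub : Icc (X / 2) (2 * X) ⊆ Ioi 0 := fun v hv => lt_of_lt_of_le (by linarith) hv.1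
    rw [hM]
    exact continuousOn_const.mul (((((continuousOn_zeroStep K _).mono hsub).norm.pow 2).add
      (((continuousOn_zeroStep K _).mono hsub).norm.pow 2)).add continuousOn_const)
  have hf : ∀ n, 1 ≤ n → 0 ≤ mangoldtK K n := fun n _ => mangoldtK_nonneg K n
  have hpt : ∀ t ∈ Icc X (2 * X), (psiK K t - t) ^ 2 ≤ M t + M (t - 1) + 2 := fun t ht => by
    have up := (momentSum_sub_bounds hf (show 0 ≤ t by linarith [ht.1])
      (show t ≤ t + 1 by linarith)).1
    have down := (momentSum_sub_bounds hf (show 0 ≤ t - 1 by linarith [ht.1])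
      (show t - 1 ≤ t by linarith)).2
    rw [add_sub_cancel_left, one_mul] at up
    rw [sub_sub_cancel, one_mul] at down
    change psiK K t ≤ _ at up
    change _ ≤ psiK K t at down
    have k1 := hMb t (by linarith [ht.1]) ht.2
    have k2 := hMb (t - 1) (by linarith [ht.1]) (by linarith [ht.2])
    rw [sub_add_cancel] at k2
    obtain ⟨a, ha⟩ : ∃ a, a = momentSum (mangoldtK K) (t + 1) - momentSum (mangoldtK K) t - t :=
      ⟨_, rfl⟩
    obtain ⟨b, hb⟩ : ∃ b, b = momentSum (mangoldtK K) t - momentSum (mangoldtK K) (t - 1) -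
      (t - 1) := ⟨_, rfl⟩
    rw [← ha] at k1
    rw [← hb] at k2
    have h1 : psiK K t - t ≤ a := by linarith
    have h2 : b - 1 ≤ psiK K t - t := by linarith
    have := hM0 t
    have := hM0 (t - 1)
    rcases le_total 0 (psiK K t - t) with h0 | h0
    · nlinarith
    · nlinarith [sq_nonneg (b + 1)]
  have hab : X ≤ 2 * X := by linarith
  have iM : IntervalIntegrable M volume X (2 * X) :=
    (hMc.mono (Icc_subset_Icc (by linarith) le_rfl)).intervalIntegrable_of_Icc hab
  have iM1 : IntervalIntegrable (fun t => M (t - 1)) volume X (2 * X) :=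
    (hMc.comp (f := fun t => t - 1) (by fun_prop) fun t ht =>
      ⟨by linarith [ht.1], by linarith [ht.2]⟩).intervalIntegrable_of_Icc hab
  have iψ : IntervalIntegrable (fun t => (psiK K t - t) ^ 2) volume X (2 * X) := by
    have hm : MonotoneOn (psiK K) (uIcc X (2 * X)) := fun u _ v _ huv =>
      partialSum_mono hf huv
    have hm2 : MonotoneOn (fun t => psiK K t ^ 2) (uIcc X (2 * X)) := fun u hu v hv huv =>
      pow_le_pow_left₀ (Finset.sum_nonneg fun n _ => mangoldtK_nonneg K n) (hm hu hv huv) 2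
    exact ((hm2.intervalIntegrable.sub ((hm.intervalIntegrable.mul_continuousOn
      (g := fun t => t) (by fun_prop)).const_mul 2)).add
        (Continuous.intervalIntegrable (by fun_prop : Continuous fun t : ℝ => t ^ 2) _ _)).congr
          fun t _ => by ring
  have hwhole : ∫ t in (X / 2)..(2 * X), M t ≤
      6 * (C1 + C2 + 2 * C ^ 2) * X ^ 2 * fieldSize K ^ 2 := by
    have hi := hMc.intervalIntegrable_of_Icc (μ := volume) (by linarith : X / 2 ≤ 2 * X)
    have hab' : X / 2 ≤ 2 * X := by linarith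
    have hsub : Icc (X / 2) (2 * X) ⊆ Ioi 0 := fun v hv => lt_of_lt_of_le (by linarith) hv.1
    have j1 : IntervalIntegrable (fun t => ‖zeroStep K (lowZeros K X) t‖ ^ 2) volume (X / 2)
        (2 * X) :=
      (((continuousOn_zeroStep K _).mono hsub).norm.pow 2).intervalIntegrable_of_Icc hab'
    have j2 : IntervalIntegrable (fun t => ‖zeroStep K (midZeros K X (X ^ 3 + 1)) t‖ ^ 2) volume
        (X / 2) (2 * X) :=
      (((continuousOn_zeroStep K _).mono hsub).norm.pow 2).intervalIntegrable_of_Icc hab'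
    rw [hM, intervalIntegral.integral_const_mul,
      intervalIntegral.integral_add (j1.add j2) intervalIntegrable_const,
      intervalIntegral.integral_add j1 j2, intervalIntegral.integral_const, smul_eq_mul]
    have : 0 ≤ C ^ 2 * fieldSize K ^ 2 * X ^ 2 := by positivity
    linarith [hlow K hRH X hX, hmid K hRH X (X ^ 3 + 1) hX]
  have hle : ∀ a b : ℝ, X / 2 ≤ a → a ≤ b → b ≤ 2 * X →
      ∫ t in a..b, M t ≤ ∫ t in (X / 2)..(2 * X), M t := fun a b h1 h2 h3 =>
    intervalIntegral.integral_mono_interval h1 h2 h3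
      (Filter.Eventually.of_forall fun v => hM0 v)
      (hMc.intervalIntegrable_of_Icc (by linarith))
  refine (intervalIntegral.integral_mono_on (μ := volume) hab iψ
    ((iM.add iM1).add intervalIntegrable_const) hpt).trans ?_
  rw [intervalIntegral.integral_add (iM.add iM1) intervalIntegrable_const,
    intervalIntegral.integral_add iM iM1, intervalIntegral.integral_comp_sub_right M 1,
    intervalIntegral.integral_const, smul_eq_mul]
  have : X ≤ X ^ 2 * fieldSize K ^ 2 := by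
    calc X ≤ X ^ 2 := le_self_pow₀ (by linarith) two_ne_zero
      _ ≤ _ := le_mul_of_one_le_right (sq_nonneg X) (one_le_pow₀ hF1)
  linarith [hle X (2 * X) (by linarith) hab le_rfl,
    hle (X - 1) (2 * X - 1) (by linarith) (by linarith) (by linarith)]

end FA.IdealShortIntervals

end
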