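import Fermat.Agent.IdealShortIntervals.Steps

/-!
# `ψ_K` and `θ_K` in short intervals

On the hypothesis of Riemann, with `R = √x (log |d| + n log x)`, for `4 ≤ x`, `0 ≤ h ≤ x` both
increase over `(x, x + h]` by `h + O (R (1 + log (1 + h / R)))`.
-/

set_option autoImplicit false
set_option linter.style.haveILetI false

noncomputable section

universe u

open NumberField Module Finset
open FA.DedekindZF FA.DedekindZeroCount FA.DedekindExplicit
open FA.DedekindPIT (mangoldtK mangoldtK_nonneg mangoldtK_le mangoldtK_eq_of_prime momentSum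
  momentSum_sub_bounds psiK thetaK thetaK_eq_sum thetaK_le_psiK partialSum_mono primeLog)
open FA.ArtinHooley (FieldRH)
open scoped Real Classical ArithmeticFunction.vonMangoldt

namespace FA.IdealShortIntervals

variable (K : Type u) [Field K] [NumberField K]

/-- `√x (log |d| + n log x)`. -/
def gapScale (x : ℝ) : ℝ := √x * (discLog K + finrank ℚ K * Real.log x)

theorem scale_facts {x : ℝ} (hx : 4 ≤ x) : 1 ≤ Real.log x ∧
    (finrank ℚ K : ℝ) ≤ discLog K + finrank ℚ K * Real.log x ∧ 2 ≤ gapScale K x ∧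
      ∀ y, 0 ≤ y → y ≤ x → height K (y + 1) ≤ 3 * (discLog K + finrank ℚ K * Real.log x) := by
  have hl : 1.38 ≤ Real.log x := by
    refine le_trans ?_ (Real.log_le_log (by norm_num) hx)
    rw [show (4 : ℝ) = 2 ^ 2 by norm_num, Real.log_pow]
    push_cast
    linarith [Real.log_two_gt_d9]
  have hD := discLog_nonneg K
  have hn : (1 : ℝ) ≤ finrank ℚ K := Nat.one_le_cast.2 finrank_pos
  have h1 : (finrank ℚ K : ℝ) ≤ finrank ℚ K * Real.log x :=
    le_mul_of_one_le_right (by linarith) (by linarith)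
  refine ⟨by linarith, by linarith, ?_, fun y hy0 hy => ?_⟩
  · have hs : 2 ≤ √x := Real.le_sqrt_of_sq_le (by linarith)
    rw [gapScale]
    exact le_trans (by norm_num) (mul_le_mul hs (show (1 : ℝ) ≤ _ by linarith) zero_le_one
      (by linarith))
  · have h2 : Real.log (|y + 1| + 3) ≤ 2 * Real.log x := by
      rw [abs_of_nonneg (by linarith), show 2 * Real.log x = Real.log (x ^ 2) by
        rw [Real.log_pow]; norm_num]
      exact Real.log_le_log (by linarith) (by nlinarith)
    have h3 := mul_le_mul_of_nonneg_left h2 (show (0 : ℝ) ≤ finrank ℚ K by linarith)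
    rw [height, ← discLog]
    linarith

/-- **`ψ_K` in short intervals.** -/
theorem exists_psi_interval : ∃ A, 0 ≤ A ∧ ∀ (K : Type u) [Field K] [NumberField K], FieldRH K →
    ∀ x h : ℝ, 4 ≤ x → 0 ≤ h → h ≤ x →
      |psiK K (x + h) - psiK K x - h| ≤
        A * gapScale K x * (1 + Real.log (1 + h / gapScale K x)) := by
  obtain ⟨C, hC, hq⟩ := exists_moment_quad.{u}
  refine ⟨9 * C + 2, by positivity, fun K _ _ hRH x h hx hh hhx => ?_⟩
  obtain ⟨hl, hn, hR2, hH⟩ := scale_facts K hx
  obtain ⟨R, hR⟩ : ∃ R, R = gapScale K x := ⟨_, rfl⟩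
  rw [← hR] at hR2 ⊢
  obtain ⟨L, hL⟩ : ∃ L, L = 1 + Real.log (1 + h / R) := ⟨_, rfl⟩
  rw [← hL]
  have hL0 : 0 ≤ h / R := by positivity
  have hlR : 0 ≤ Real.log (1 + h / R) := Real.log_nonneg (by linarith)
  have hL1 : 1 ≤ L := by linarith
  obtain ⟨δ, hδ⟩ : ∃ δ, δ = min R (x / 2) := ⟨_, rfl⟩
  have hδ1 : 1 ≤ δ := hδ ▸ le_min (by linarith) (by linarith)
  have hδR : δ ≤ R := hδ ▸ min_le_left _ _
  have hδx : δ ≤ x / 2 := hδ ▸ min_le_right _ _
  have hratio : h / δ ≤ h / R + 2 := by
    rw [hδ]
    rcases le_total R (x / 2) with hle | hle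
    · rw [min_eq_left hle]
      linarith
    · rw [min_eq_right hle]
      have : h / (x / 2) ≤ 2 := by rw [div_le_iff₀ (by linarith)]; linarith
      linarith
  have key : ∀ y h', 1 ≤ y → y ≤ x → δ ≤ y → δ ≤ h' → h' ≤ h + δ → h' ≤ 4 * y →
      |momentSum (mangoldtK K) (y + h' + δ) - momentSum (mangoldtK K) (y + h') -
          momentSum (mangoldtK K) (y + δ) + momentSum (mangoldtK K) y - h' * δ| ≤
        δ * (9 * C * R * L) := by
    intro y h' h1 h2 h3 h4 h5 h6
    refine (hq K hRH y h' δ h1 hδ1 h4 h3 h6).trans ?_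
    have e1 : Real.log (h' / δ) ≤ 2 + Real.log (1 + h / R) := by
      have e : h' / δ ≤ 3 * (1 + h / R) := by
        rw [div_le_iff₀ (by linarith)]
        have := mul_le_mul_of_nonneg_right hratio (show 0 ≤ δ by linarith)
        rw [div_mul_cancel₀ _ (show δ ≠ 0 by linarith)] at this
        nlinarith
      refine (Real.log_le_log (div_pos (by linarith) (by linarith)) e).trans ?_
      rw [Real.log_mul (by norm_num) (by linarith)]
      linarith [Real.log_le_sub_one_of_pos (show (0 : ℝ) < 3 by norm_num)]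
    have e2 : √y * height K (y + 1) ≤ 3 * R := by
      rw [hR, gapScale, show 3 * (√x * (discLog K + finrank ℚ K * Real.log x)) =
        √x * (3 * (discLog K + finrank ℚ K * Real.log x)) by ring]
      exact mul_le_mul (Real.sqrt_le_sqrt h2) (hH y (by linarith) h2)
        (zero_le_one.trans (one_le_height K _)) (Real.sqrt_nonneg x)
    have e3 := mul_le_mul e2 (show 1 + Real.log (h' / δ) ≤ 3 * L by linarith)
      (add_nonneg zero_le_one (Real.log_nonneg ((one_le_div (by linarith)).2 h4)))
      (by linarith)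
    have e4 := mul_le_mul_of_nonneg_left e3 (show 0 ≤ C * δ by nlinarith)
    linarith
  have hRL : R ≤ R * L := le_mul_of_one_le_right (by linarith) hL1
  have hCRL : 0 ≤ C * R * L := by positivity
  have hf : ∀ n, 1 ≤ n → 0 ≤ mangoldtK K n := fun n _ => mangoldtK_nonneg K n
  have hδ0 : 0 < δ := by linarith
  rw [abs_le]
  constructor
  · rcases le_or_gt h (2 * δ) with hsmall | hlarge
    · have := partialSum_mono (f := mangoldtK K) hf (show x ≤ x + h by linarith)
      change psiK K x ≤ psiK K (x + h) at this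
      linarith
    have k := (abs_le.1 (key x (h - δ) (by linarith) le_rfl (by linarith) (by linarith)
      (by linarith) (by linarith))).1
    have m1 := (momentSum_sub_bounds hf (show 0 ≤ x + h - δ by linarith)
      (show x + h - δ ≤ x + h by linarith)).2
    have m2 := (momentSum_sub_bounds hf (show 0 ≤ x by linarith) (show x ≤ x + δ by linarith)).1
    rw [show x + (h - δ) + δ = x + h by ring, show x + (h - δ) = x + h - δ by ring] at k
    rw [sub_sub_cancel] at m1
    rw [add_sub_cancel_left] at m2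
    change _ ≤ δ * psiK K (x + h) at m1
    change δ * psiK K x ≤ _ at m2
    have : δ * (psiK K (x + h) - psiK K x - (h - δ) + 9 * C * R * L) ≥ 0 := by linarith
    have := nonneg_of_mul_nonneg_right this hδ0
    linarith
  · have k := (abs_le.1 (key (x - δ) (h + δ) (by linarith) (by linarith) (by linarith)
      (by linarith) le_rfl (by linarith))).2
    have m1 := (momentSum_sub_bounds hf (show 0 ≤ x + h by linarith)
      (show x + h ≤ x + h + δ by linarith)).1
    have m2 := (momentSum_sub_bounds hf (show 0 ≤ x - δ by linarith)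
      (show x - δ ≤ x by linarith)).2
    rw [show x - δ + (h + δ) + δ = x + h + δ by ring, show x - δ + (h + δ) = x + h by ring,
      sub_add_cancel] at k
    rw [add_sub_cancel_left] at m1
    rw [sub_sub_cancel] at m2
    change δ * psiK K (x + h) ≤ _ at m1
    change _ ≤ δ * psiK K x at m2
    have : δ * (psiK K (x + h) - psiK K x - (h + δ) - 9 * C * R * L) ≤ 0 := by linarith
    have := nonpos_of_mul_nonpos_right this hδ0
    linarith

theorem psiK_sub_thetaK_sqrt {x C : ℝ} (hC : Chebyshev.psi x - Chebyshev.theta x ≤ C * √x) :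
    psiK K x - thetaK K x ≤ finrank ℚ K * (C * √x) := by
  refine le_trans ?_ (mul_le_mul_of_nonneg_left hC (Nat.cast_nonneg _))
  rw [thetaK_eq_sum, psiK, Chebyshev.psi, Chebyshev.theta, Finset.sum_filter, ← sum_sub_distrib,
    ← sum_sub_distrib, mul_sum]
  refine sum_le_sum fun n _ => ?_
  by_cases hp : n.Prime
  · rw [mangoldtK_eq_of_prime K hp, sub_self]
    simp [hp, ArithmeticFunction.vonMangoldt_apply_prime hp]
  · have h : 0 ≤ primeLog K n := sum_nonneg fun _ _ => Real.log_natCast_nonneg _
    simp only [hp, if_false, sub_zero]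
    linarith [mangoldtK_le K n]

/-- **`θ_K` in short intervals.** -/
theorem exists_theta_interval : ∃ A, 0 ≤ A ∧ ∀ (K : Type u) [Field K] [NumberField K], FieldRH K →
    ∀ x h : ℝ, 4 ≤ x → 0 ≤ h → h ≤ x →
      |thetaK K (x + h) - thetaK K x - h| ≤
        A * gapScale K x * (1 + Real.log (1 + h / gapScale K x)) := by
  obtain ⟨A, hA, hψ⟩ := exists_psi_interval.{u}
  obtain ⟨Cp, hp⟩ := Chebyshev.psi_sub_theta_le_mul_sqrt
  refine ⟨A + 2 * |Cp|, by positivity, fun K _ _ hRH x h hx hh hhx => ?_⟩
  obtain ⟨-, hn, hR2, -⟩ := scale_facts K hx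
  have hg : √x * finrank ℚ K ≤ gapScale K x := by
    rw [gapScale]
    exact mul_le_mul_of_nonneg_left hn (Real.sqrt_nonneg x)
  have hb : ∀ t, x ≤ t → t ≤ 2 * x →
      0 ≤ psiK K t - thetaK K t ∧ psiK K t - thetaK K t ≤ 2 * |Cp| * gapScale K x := by
    intro t h1 h2
    refine ⟨sub_nonneg.2 (thetaK_le_psiK K t), (psiK_sub_thetaK_sqrt K (C := |Cp|) ((hp t).trans
      (mul_le_mul_of_nonneg_right (le_abs_self Cp) (Real.sqrt_nonneg t)))).trans ?_⟩
    have ht : √t ≤ 2 * √x := by
      refine (Real.sqrt_le_sqrt (show t ≤ 2 ^ 2 * x by linarith)).trans (le_of_eq ?_)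
      rw [Real.sqrt_mul (by norm_num), Real.sqrt_sq (by norm_num)]
    have := mul_le_mul_of_nonneg_left ht (show 0 ≤ (finrank ℚ K : ℝ) * |Cp| by positivity)
    have := mul_le_mul_of_nonneg_left hg (show 0 ≤ 2 * |Cp| by positivity)
    linarith
  obtain ⟨a1, a2⟩ := hb x le_rfl (by linarith)
  obtain ⟨a3, a4⟩ := hb (x + h) (by linarith) (by linarith)
  have hL : gapScale K x ≤ gapScale K x * (1 + Real.log (1 + h / gapScale K x)) :=
    le_mul_of_one_le_right (by linarith) (le_add_of_nonneg_right
      (Real.log_nonneg (le_add_of_nonneg_right (by positivity))))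
  have := mul_le_mul_of_nonneg_left hL (show 0 ≤ 2 * |Cp| by positivity)
  have h1 := abs_le.1 (hψ K hRH x h hx hh hhx)
  rw [abs_le]
  constructor <;> linarith [h1.1, h1.2]

end FA.IdealShortIntervals

end
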