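import Fermat.Agent.IdealShortIntervals.Sums

/-!
# Four points of the moment on the hypothesis of Riemann

With the steps `1 ≤ δ ≤ h` the mixed difference of the moment of `Λ_K` at `y` is
`h δ + O (δ √y height y (1 + log (h / δ)))`: the zeros split at the heights `y / h` and `y / δ`.
-/

set_option autoImplicit false
set_option linter.style.haveILetI false

noncomputable section

universe u

open NumberField InfinitePlace Module Complex MeasureTheory Set
open FA.DedekindZF FA.DedekindZeroCount FA.DedekindHadamard FA.DedekindExplicit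
open FA.DedekindPIT (mangoldtK momentSum)
open FA.ArtinHooley (fieldSize FieldRH)
open scoped Real Classical

namespace FA.IdealShortIntervals

/-- The mixed difference of `y ^ (ρ + 1) / (ρ (ρ + 1))`. -/
def kerQuad (y h δ : ℝ) (ρ : ℂ) : ℂ :=
  rawKer (y + h + δ) ρ - rawKer (y + h) ρ - rawKer (y + δ) ρ + rawKer y ρ

theorem rawKer_diff_eq {ρ : ℂ} (h0 : 0 < ρ.re) {u δ : ℝ} :
    rawKer (u + δ) ρ - rawKer u ρ = ρ⁻¹ * ∫ w in u..(u + δ), (w : ℂ) ^ ρ := by
  have hρ : ρ ≠ 0 := fun h => by simp [h] at h0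
  rw [integral_cpow (Or.inl (by linarith)), rawKer, rawKer]
  push_cast
  field_simp

theorem norm_rawKer_diff_mid {ρ : ℂ} (h0 : 0 < ρ.re) (hb : ρ.re ≤ 1 / 2) (hg : 1 / 2 ≤ ‖ρ‖)
    {y u δ : ℝ} (hy : 1 ≤ y) (hu : y ≤ u) (hδ : 0 ≤ δ) (hud : u + δ ≤ 9 * y) :
    ‖rawKer (u + δ) ρ - rawKer u ρ‖ ≤ 9 * δ * √y / (1 + |ρ.im|) := by
  have hb' : ‖∫ w in u..(u + δ), (w : ℂ) ^ ρ‖ ≤ 3 * √y * |u + δ - u| := by
    refine intervalIntegral.norm_integral_le_of_norm_le_const fun w hw => ?_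
    rw [uIoc_of_le (by linarith)] at hw
    rw [norm_cpow_eq_rpow_re_of_pos (by linarith [hw.1])]
    refine (Real.rpow_le_rpow_of_exponent_le (by linarith [hw.1]) hb).trans ?_
    rw [← Real.sqrt_eq_rpow]
    refine (Real.sqrt_le_sqrt (show w ≤ 3 ^ 2 * y by linarith [hw.2])).trans (le_of_eq ?_)
    rw [Real.sqrt_mul (by norm_num), Real.sqrt_sq (by norm_num)]
  rw [add_sub_cancel_left, abs_of_nonneg hδ] at hb'
  have h1 := one_add_im_le_norm hg
  have hρ : 0 < ‖ρ‖ := by linarith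
  rw [rawKer_diff_eq h0, norm_mul, norm_inv, mul_comm, ← div_eq_mul_inv]
  refine (div_le_div_of_nonneg_right hb' hρ.le).trans ?_
  rw [div_le_div_iff₀ hρ (by positivity)]
  linarith [mul_le_mul_of_nonneg_left h1 (show 0 ≤ 3 * √y * δ by positivity)]

theorem norm_kerQuad_le_head {ρ : ℂ} (h0 : 0 < ρ.re) (hb : ρ.re ≤ 1 / 2) {y h δ : ℝ} (hy : 1 ≤ y)
    (hh : 0 ≤ h) (hδ : 0 ≤ δ) : ‖kerQuad y h δ ρ‖ ≤ δ * h / √y := by
  have hρ : ρ ≠ 0 := fun e => by simp [e] at h0
  have hc : ∀ c : ℝ, 0 ≤ c → IntervalIntegrable (fun w : ℝ => ((w + c : ℝ) : ℂ) ^ ρ) volume y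
      (y + δ) := fun c hc => by
    refine ContinuousOn.intervalIntegrable fun w hw => ?_
    rw [uIcc_of_le (by linarith)] at hw
    exact (ContinuousAt.comp' (g := fun v : ℝ => (v : ℂ) ^ ρ) (f := fun v : ℝ => v + c)
      (continuousAt_ofReal_cpow_const (w + c) ρ (Or.inl h0)) (by fun_prop)).continuousWithinAt
  have e : kerQuad y h δ ρ =
      ρ⁻¹ * ∫ w in y..(y + δ), (((w + h : ℝ) : ℂ) ^ ρ - (w : ℂ) ^ ρ) := by
    have h2 := hc 0 le_rfl
    simp only [add_zero] at h2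
    rw [intervalIntegral.integral_sub (hc h hh) h2,
      intervalIntegral.integral_comp_add_right (fun w : ℝ => (w : ℂ) ^ ρ) h, mul_sub,
      show y + δ + h = y + h + δ by ring, ← rawKer_diff_eq h0, ← rawKer_diff_eq h0, kerQuad]
    ring
  have hin : ∀ w ∈ Set.uIoc y (y + δ),
      ‖((w + h : ℝ) : ℂ) ^ ρ - (w : ℂ) ^ ρ‖ ≤ ‖ρ‖ * (h / √y) := fun w hw => by
    rw [uIoc_of_le (by linarith)] at hw
    have hi := integral_cpow (a := w) (b := w + h) (r := ρ - 1)
      (Or.inl (by rw [sub_re, one_re]; linarith))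
    rw [sub_add_cancel] at hi
    rw [show ((w + h : ℝ) : ℂ) ^ ρ - (w : ℂ) ^ ρ =
      ρ * ∫ v in w..(w + h), (v : ℂ) ^ (ρ - 1) by rw [hi]; field_simp, norm_mul]
    refine mul_le_mul_of_nonneg_left ((intervalIntegral.norm_integral_le_of_norm_le_const
      (C := 1 / √y) fun v hv => ?_).trans (le_of_eq ?_)) (norm_nonneg ρ)
    · rw [uIoc_of_le (by linarith)] at hv
      rw [norm_cpow_eq_rpow_re_of_pos (by linarith [hv.1, hw.1]), sub_re, one_re]
      refine (Real.rpow_le_rpow_of_nonpos (by linarith) (show y ≤ v by linarith [hv.1, hw.1])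
        (by linarith)).trans ?_
      rw [Real.sqrt_eq_rpow, one_div (y ^ _), ← Real.rpow_neg (by linarith)]
      exact Real.rpow_le_rpow_of_exponent_le hy (by linarith)
    · rw [add_sub_cancel_left, abs_of_nonneg hh]
      ring
  have hI := intervalIntegral.norm_integral_le_of_norm_le_const hin
  rw [add_sub_cancel_left, abs_of_nonneg hδ] at hI
  rw [e, norm_mul, norm_inv, inv_mul_le_iff₀ (norm_pos_iff.2 hρ)]
  exact hI.trans (le_of_eq (by ring))

theorem norm_kerQuad_le_tail {ρ : ℂ} (hb : ρ.re ≤ 1 / 2) (hg : 1 / 2 ≤ ‖ρ‖) (hg1 : 1 / 2 ≤ ‖ρ + 1‖)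
    {y h δ : ℝ} (hy : 1 ≤ y) (hh : 0 ≤ h) (hδ : 0 ≤ δ) (h9 : y + h + δ ≤ 9 * y) :
    ‖kerQuad y h δ ρ‖ ≤ 972 * (y * √y) / (1 + |ρ.im|) ^ 2 := by
  have k : ∀ z, y ≤ z → z ≤ 9 * y → ‖rawKer z ρ‖ ≤ 243 * (y * √y) / (1 + |ρ.im|) ^ 2 :=
    fun z hz hz9 => (norm_rawKer_le hg hg1 (by linarith)).trans (div_le_div_of_nonneg_right (by
      have e : z ^ (ρ.re + 1) ≤ 27 * (y * √y) := by
        refine (Real.rpow_le_rpow_of_exponent_le (by linarith)
          (show ρ.re + 1 ≤ 1 / 2 + 1 by linarith)).trans ?_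
        rw [Real.rpow_add_one (by linarith), ← Real.sqrt_eq_rpow]
        have h3 : √z ≤ 3 * √y := by
          refine (Real.sqrt_le_sqrt (show z ≤ 3 ^ 2 * y by linarith)).trans (le_of_eq ?_)
          rw [Real.sqrt_mul (by norm_num), Real.sqrt_sq (by norm_num)]
        have := mul_le_mul h3 hz9 (by linarith) (by positivity)
        linarith
      linarith) (by positivity))
  refine (norm_add_le _ _).trans ((add_le_add ((norm_sub_le _ _).trans (add_le_add
    ((norm_sub_le _ _).trans (add_le_add (k _ (by linarith) h9) (k _ (by linarith) (by linarith))))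
      (k _ (by linarith) (by linarith)))) (k y le_rfl (by linarith))).trans (le_of_eq ?_))
  ring

/-- **The zeros in a mixed difference.** -/
theorem exists_quad_zeros : ∃ C, 0 ≤ C ∧ ∀ (K : Type u) [Field K] [NumberField K], FieldRH K →
    ∀ y h δ : ℝ, 1 ≤ y → 1 ≤ δ → δ ≤ h → δ ≤ y → h ≤ 4 * y → ∀ S : Finset ℂ,
      ∑ ρ ∈ S, (xiMult K ρ : ℝ) * ‖kerQuad y h δ ρ‖ ≤
        C * (δ * √y * height K (y + 1) * (1 + Real.log (h / δ))) := by
  obtain ⟨Cn, hCn, hcount⟩ := exists_zero_count.{u}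
  obtain ⟨Cm, hCm, hmid⟩ := exists_mid_sum.{u}
  obtain ⟨Ct, hCt, htail⟩ := exists_tail_sum.{u}
  refine ⟨9 * Cn + 54 * Cm + 972 * Ct, by positivity,
    fun K _ _ hRH y h δ hy hδ hδh hδy hh S => ?_⟩
  have hz := zerosLeftOf_of_RH K hRH
  have hy0 : 0 < y := by linarith
  have hh0 : 0 < h := by linarith
  have hlog : 0 ≤ Real.log (h / δ) :=
    Real.log_nonneg ((one_le_div (by linarith)).2 hδh)
  obtain ⟨H, hH⟩ : ∃ H, H = height K (y + 1) := ⟨_, rfl⟩
  rw [← hH]
  have hH1 : 1 ≤ H := hH ▸ one_le_height K _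
  obtain ⟨M, hM⟩ : ∃ M : ℕ, M = ⌊y / h⌋₊ + 1 := ⟨_, rfl⟩
  obtain ⟨N, hN⟩ : ∃ N : ℕ, N = ⌊y / δ⌋₊ + 1 := ⟨_, rfl⟩
  have hMN : M ≤ N := by
    rw [hM, hN]
    exact Nat.add_le_add_right (Nat.floor_mono (div_le_div_of_nonneg_left hy0.le (by linarith)
      hδh)) 1
  have hM1 : y / h < M := by rw [hM]; push_cast; exact Nat.lt_floor_add_one _
  have hM2 : (M : ℝ) ≤ y / h + 1 := by
    rw [hM]; push_cast; linarith [Nat.floor_le (show 0 ≤ y / h by positivity)]
  have hN1 : y / δ < N := by rw [hN]; push_cast; exact Nat.lt_floor_add_one _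
  have hN2 : (N : ℝ) ≤ y / δ + 1 := by
    rw [hN]; push_cast; linarith [Nat.floor_le (show 0 ≤ y / δ by positivity)]
  have hyd : y / δ ≤ y := div_le_self hy0.le hδ
  have hHN : height K N ≤ H := hH ▸ height_mono K (by
    rw [Nat.abs_cast, abs_of_nonneg (by linarith)]; linarith)
  have hHM : height K M ≤ H := (height_mono K (by
    rw [Nat.abs_cast, Nat.abs_cast]; exact Nat.cast_le.2 hMN)).trans hHN
  have facts : ∀ ρ, xiMult K ρ ≠ 0 → 0 < ρ.re ∧ ρ.re ≤ 1 / 2 ∧ 1 / 2 ≤ ‖ρ‖ ∧ 1 / 2 ≤ ‖ρ + 1‖ :=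
    fun ρ hm => by
    obtain ⟨hρ, h0, -⟩ := strip_of_mult K hm
    have r1 := hz.one_sub_le hρ
    exact ⟨h0, hz ρ hρ, le_trans (by linarith) (Complex.re_le_norm ρ),
      le_trans (by rw [add_re, one_re]; linarith) (re_le_norm _)⟩
  obtain ⟨B, hB⟩ : ∃ B, B = δ * √y * H * (1 + Real.log (h / δ)) := ⟨_, rfl⟩
  rw [← hB]
  have hB0 : δ * √y * H ≤ B := by
    rw [hB]
    exact le_mul_of_one_le_right (by positivity) (by linarith)
  rw [← Finset.sum_filter_add_sum_filter_not S (fun ρ : ℂ => |ρ.im| ≤ M),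
    ← Finset.sum_filter_add_sum_filter_not (S.filter fun ρ : ℂ => ¬|ρ.im| ≤ M)
      (fun ρ : ℂ => |ρ.im| ≤ N)]
  have b1 : ∑ ρ ∈ S.filter (fun ρ : ℂ => |ρ.im| ≤ M), (xiMult K ρ : ℝ) * ‖kerQuad y h δ ρ‖ ≤
      9 * Cn * B := by
    refine (Finset.sum_le_sum (g := fun ρ => δ * h / √y * (xiMult K ρ : ℝ))
      fun ρ _ => ?_).trans ?_
    · by_cases hm : xiMult K ρ = 0
      · simp [hm]
      obtain ⟨h0, hb, -, -⟩ := facts ρ hm
      rw [mul_comm (δ * h / √y)]
      exact mul_le_mul_of_nonneg_left (norm_kerQuad_le_head h0 hb hy hh0.le (by linarith))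
        (Nat.cast_nonneg _)
    · rw [← Finset.mul_sum]
      refine (mul_le_mul_of_nonneg_left (hcount K M _ fun ρ hρ => (Finset.mem_filter.1 hρ).2)
        (by positivity)).trans ?_
      have e1 : h * ((M : ℝ) + 1) ≤ 9 * y := by
        have := mul_le_mul_of_nonneg_left hM2 hh0.le
        rw [mul_add, mul_div_cancel₀ _ hh0.ne'] at this
        linarith
      have e2 := mul_le_mul e1 hHM (zero_le_one.trans (one_le_height K _)) (by positivity)
      refine le_trans ?_ (mul_le_mul_of_nonneg_left hB0 (by positivity : (0 : ℝ) ≤ 9 * Cn))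
      rw [show δ * h / √y * (Cn * ((M : ℝ) + 1) * height K M) =
        Cn * δ / √y * (h * ((M : ℝ) + 1) * height K M) by ring]
      refine (mul_le_mul_of_nonneg_left e2 (by positivity)).trans (le_of_eq ?_)
      have hs := Real.mul_self_sqrt hy0.le
      field_simp
      rw [sq, hs]
  have b2 : ∑ ρ ∈ (S.filter fun ρ : ℂ => ¬|ρ.im| ≤ M).filter (fun ρ : ℂ => |ρ.im| ≤ N),
      (xiMult K ρ : ℝ) * ‖kerQuad y h δ ρ‖ ≤ 54 * Cm * B := by
    refine (Finset.sum_le_sum (g := fun ρ => 18 * δ * √y * ((xiMult K ρ : ℝ) / (1 + |ρ.im|)))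
      fun ρ _ => ?_).trans ?_
    · by_cases hm : xiMult K ρ = 0
      · simp [hm]
      obtain ⟨h0, hb, hg, -⟩ := facts ρ hm
      rw [show 18 * δ * √y * ((xiMult K ρ : ℝ) / (1 + |ρ.im|)) =
        xiMult K ρ * (9 * δ * √y / (1 + |ρ.im|) + 9 * δ * √y / (1 + |ρ.im|)) by ring]
      refine mul_le_mul_of_nonneg_left ?_ (Nat.cast_nonneg _)
      rw [show kerQuad y h δ ρ = (rawKer (y + h + δ) ρ - rawKer (y + h) ρ) -
        (rawKer (y + δ) ρ - rawKer y ρ) by rw [kerQuad]; ring]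
      exact (norm_sub_le _ _).trans (add_le_add
        (norm_rawKer_diff_mid h0 hb hg hy (by linarith) (by linarith) (by linarith))
        (norm_rawKer_diff_mid h0 hb hg hy le_rfl (by linarith) (by linarith)))
    · rw [← Finset.mul_sum]
      refine (mul_le_mul_of_nonneg_left (hmid K M N _ hMN fun ρ hρ => ?_) (by positivity)).trans ?_
      · simp only [Finset.mem_filter] at hρ
        exact ⟨(lt_of_not_ge hρ.1.2).le, hρ.2⟩
      have e1 : Real.log (((N : ℝ) + 1) / ((M : ℝ) + 1)) ≤ 2 + Real.log (h / δ) := by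
        have e3 : ((N : ℝ) + 1) / ((M : ℝ) + 1) ≤ 3 * (h / δ) := by
          refine (div_le_div₀ (by positivity) (show (N : ℝ) + 1 ≤ 3 * (y / δ) by
            linarith [(one_le_div (show (0 : ℝ) < δ by linarith)).2 hδy]) (div_pos hy0 hh0)
              (by linarith)).trans (le_of_eq ?_)
          field_simp
        refine (Real.log_le_log (by positivity) e3).trans ?_
        rw [Real.log_mul (by norm_num) (div_pos hh0 (by linarith)).ne']
        linarith [Real.log_le_sub_one_of_pos (show (0 : ℝ) < 3 by norm_num)]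
      have e2 : Cm * height K N * (1 + Real.log (((N : ℝ) + 1) / ((M : ℝ) + 1))) ≤
          Cm * H * (3 * (1 + Real.log (h / δ))) :=
        mul_le_mul (mul_le_mul_of_nonneg_left hHN hCm) (by linarith)
          (add_nonneg zero_le_one (Real.log_nonneg ((one_le_div (by positivity)).2
            (by linarith [(Nat.cast_le (α := ℝ)).2 hMN]))))
          (mul_nonneg hCm (by linarith))
      refine (mul_le_mul_of_nonneg_left e2 (by positivity)).trans (le_of_eq ?_)
      rw [hB]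
      ring
  have b3 : ∑ ρ ∈ (S.filter fun ρ : ℂ => ¬|ρ.im| ≤ M).filter (fun ρ : ℂ => ¬|ρ.im| ≤ N),
      (xiMult K ρ : ℝ) * ‖kerQuad y h δ ρ‖ ≤ 972 * Ct * B := by
    refine (Finset.sum_le_sum (g := fun ρ => 972 * (y * √y) *
      ((xiMult K ρ : ℝ) / (1 + |ρ.im|) ^ 2)) fun ρ _ => ?_).trans ?_
    · by_cases hm : xiMult K ρ = 0
      · simp [hm]
      obtain ⟨-, hb, hg, hg1⟩ := facts ρ hm
      rw [show 972 * (y * √y) * ((xiMult K ρ : ℝ) / (1 + |ρ.im|) ^ 2) =
        xiMult K ρ * (972 * (y * √y) / (1 + |ρ.im|) ^ 2) by ring]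
      exact mul_le_mul_of_nonneg_left
        (norm_kerQuad_le_tail hb hg hg1 hy hh0.le (by linarith) (by linarith)) (Nat.cast_nonneg _)
    · rw [← Finset.mul_sum]
      refine (mul_le_mul_of_nonneg_left (htail K N _ fun ρ hρ =>
        (lt_of_not_ge (Finset.mem_filter.1 hρ).2).le) (by positivity)).trans ?_
      have e1 : Ct * height K N / ((N : ℝ) + 1) ≤ Ct * H / (y / δ) :=
        div_le_div₀ (mul_nonneg hCt (by linarith)) (mul_le_mul_of_nonneg_left hHN hCt)
          (by positivity) (by linarith)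
      refine le_trans ?_ (mul_le_mul_of_nonneg_left hB0 (by positivity : (0 : ℝ) ≤ 972 * Ct))
      refine (mul_le_mul_of_nonneg_left e1 (by positivity)).trans (le_of_eq ?_)
      field_simp
  rw [show (9 * Cn + 54 * Cm + 972 * Ct) * B = 9 * Cn * B + (54 * Cm * B + 972 * Ct * B) by ring]
  exact add_le_add b1 (add_le_add b2 b3)

theorem mul_log_diff {u δ : ℝ} (hu : 0 < u) (hδ : 0 ≤ δ) :
    δ * Real.log u ≤ (u + δ) * Real.log (u + δ) - u * Real.log u ∧
      (u + δ) * Real.log (u + δ) - u * Real.log u ≤ δ * Real.log (u + δ) + δ := by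
  have h1 : Real.log u ≤ Real.log (u + δ) := Real.log_le_log hu (by linarith)
  have h2 : u * (Real.log (u + δ) - Real.log u) ≤ δ := by
    rw [← Real.log_div (by linarith) hu.ne']
    have := mul_le_mul_of_nonneg_left (Real.log_le_sub_one_of_pos
      (show 0 < (u + δ) / u by positivity)) hu.le
    rwa [show u * ((u + δ) / u - 1) = δ by field_simp; ring] at this
  have h3 := mul_nonneg hu.le (sub_nonneg.2 h1)
  have h4 := mul_le_mul_of_nonneg_left h1 hδ
  constructor <;> linarith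

/-- **The mixed difference of the moment.** -/
theorem exists_moment_quad : ∃ C, 0 ≤ C ∧ ∀ (K : Type u) [Field K] [NumberField K], FieldRH K →
    ∀ y h δ : ℝ, 1 ≤ y → 1 ≤ δ → δ ≤ h → δ ≤ y → h ≤ 4 * y →
      |momentSum (mangoldtK K) (y + h + δ) - momentSum (mangoldtK K) (y + h) -
          momentSum (mangoldtK K) (y + δ) + momentSum (mangoldtK K) y - h * δ| ≤
        C * (δ * √y * height K (y + 1) * (1 + Real.log (h / δ))) := by
  obtain ⟨Cz, hCz, hzero⟩ := exists_quad_zeros.{u}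
  obtain ⟨Cl, hCl, hleft⟩ := exists_norm_leftInt.{u}
  refine ⟨Cz + 12 * Cl + 5, by positivity, fun K _ _ hRH y h δ hy hδ hδh hδy hh => ?_⟩
  obtain ⟨H, hH⟩ : ∃ H, H = height K (y + 1) := ⟨_, rfl⟩
  obtain ⟨B, hB⟩ : ∃ B, B = δ * √y * H * (1 + Real.log (h / δ)) := ⟨_, rfl⟩
  rw [← hH, ← hB]
  have hH1 : 1 ≤ H := hH ▸ one_le_height K _
  have hlog : 0 ≤ Real.log (h / δ) :=
    Real.log_nonneg ((one_le_div (by linarith)).2 hδh)
  have hB0 : δ * √y * H ≤ B := by
    rw [hB]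
    exact le_mul_of_one_le_right (by positivity) (by linarith)
  have hsy : 1 ≤ √y := Real.one_le_sqrt.2 hy
  have p1 : (1 : ℝ) ≤ y + h + δ := by linarith
  have p2 : (1 : ℝ) ≤ y + h := by linarith
  have p3 : (1 : ℝ) ≤ y + δ := by linarith
  have s0 := (summable_rawKer K hy).of_norm
  have s1 := (summable_rawKer K p1).of_norm
  have s2 := (summable_rawKer K p2).of_norm
  have s3 := (summable_rawKer K p3).of_norm
  have hsum : HasSum (fun ρ => (xiMult K ρ : ℂ) * kerQuad y h δ ρ)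
      ((∑' ρ, (xiMult K ρ : ℂ) * rawKer (y + h + δ) ρ) -
        (∑' ρ, (xiMult K ρ : ℂ) * rawKer (y + h) ρ) -
          (∑' ρ, (xiMult K ρ : ℂ) * rawKer (y + δ) ρ) + ∑' ρ, (xiMult K ρ : ℂ) * rawKer y ρ) :=
    (((s1.hasSum.sub s2.hasSum).sub s3.hasSum).add s0.hasSum).congr_fun fun ρ => by
      rw [kerQuad]; ring
  have z1 : ‖(∑' ρ, (xiMult K ρ : ℂ) * rawKer (y + h + δ) ρ) -
      (∑' ρ, (xiMult K ρ : ℂ) * rawKer (y + h) ρ) -
        (∑' ρ, (xiMult K ρ : ℂ) * rawKer (y + δ) ρ) + ∑' ρ, (xiMult K ρ : ℂ) * rawKer y ρ‖ ≤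
      Cz * B := by
    rw [← hsum.tsum_eq]
    refine (norm_tsum_le_tsum_norm hsum.summable.norm).trans (Real.tsum_le_of_sum_le
      (fun ρ => norm_nonneg _) fun S => ?_)
    simp only [norm_mul, Complex.norm_natCast]
    exact (hzero K hRH y h δ hy hδ hδh hδy hh S).trans (le_of_eq (by rw [hB, hH]))
  have hF : fieldSize K ≤ H := hH ▸ fieldSize_le_height K _
  have l1 : ∀ z, 1 ≤ z → z ≤ 9 * y → ‖leftInt K z‖ ≤ 3 * Cl * B := fun z hz hz9 => by
    refine (hleft K z (by linarith)).trans ?_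
    have e : √z ≤ 3 * √y := by
      refine (Real.sqrt_le_sqrt (show z ≤ 3 ^ 2 * y by linarith)).trans (le_of_eq ?_)
      rw [Real.sqrt_mul (by norm_num), Real.sqrt_sq (by norm_num)]
    refine (mul_le_mul (mul_le_mul_of_nonneg_left hF hCl) e (Real.sqrt_nonneg z)
      (mul_nonneg hCl (by linarith))).trans ?_
    have := mul_le_mul_of_nonneg_left
      ((le_mul_of_one_le_left (show 0 ≤ √y * H by positivity) hδ).trans
        (le_trans (le_of_eq (by ring)) hB0)) hCl
    linarith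
  have u1 : |unitCount K| * |(y + h + δ) * Real.log (y + h + δ) - (y + h) * Real.log (y + h) -
      ((y + δ) * Real.log (y + δ) - y * Real.log y)| ≤ 5 * B := by
    obtain ⟨a1, a2⟩ := mul_log_diff (show 0 < y + h by linarith) (show 0 ≤ δ by linarith)
    obtain ⟨a3, a4⟩ := mul_log_diff (show 0 < y by linarith) (show 0 ≤ δ by linarith)
    have hl : ∀ p q : ℝ, y ≤ q → p ≤ 9 * y → 0 < p → Real.log p - Real.log q ≤ 4 :=
      fun p q hq hp hp0 => by
      have h3 := Real.log_le_log hp0 hp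
      rw [Real.log_mul (by norm_num) (by linarith), show (9 : ℝ) = 3 ^ 2 by norm_num,
        Real.log_pow] at h3
      have := Real.log_le_log (show 0 < y by linarith) hq
      have := Real.log_le_sub_one_of_pos (show (0 : ℝ) < 3 by norm_num)
      push_cast at h3
      linarith
    have w1 := mul_le_mul_of_nonneg_left (hl (y + h + δ) y le_rfl (by linarith) (by linarith))
      (show 0 ≤ δ by linarith)
    have w2 := mul_le_mul_of_nonneg_left (hl (y + δ) (y + h) (by linarith) (by linarith)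
      (by linarith)) (show 0 ≤ δ by linarith)
    refine (mul_le_mul ((abs_unitCount_le K).trans ((finrank_le_height K _).trans hH.ge))
      (show _ ≤ 5 * δ by rw [abs_le]; constructor <;> linarith) (abs_nonneg _)
        (by linarith)).trans ?_
    have := (le_mul_of_one_le_right (show 0 ≤ δ * H by positivity) hsy).trans
      (le_trans (le_of_eq (by ring)) hB0)
    linarith
  have e : ((momentSum (mangoldtK K) (y + h + δ) - momentSum (mangoldtK K) (y + h) -
        momentSum (mangoldtK K) (y + δ) + momentSum (mangoldtK K) y - h * δ : ℝ) : ℂ) =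
      -((unitCount K * ((y + h + δ) * Real.log (y + h + δ) - (y + h) * Real.log (y + h) -
          ((y + δ) * Real.log (y + δ) - y * Real.log y)) : ℝ) : ℂ) -
        ((∑' ρ, (xiMult K ρ : ℂ) * rawKer (y + h + δ) ρ) -
          (∑' ρ, (xiMult K ρ : ℂ) * rawKer (y + h) ρ) -
            (∑' ρ, (xiMult K ρ : ℂ) * rawKer (y + δ) ρ) + ∑' ρ, (xiMult K ρ : ℂ) * rawKer y ρ) +
        (leftInt K (y + h + δ) - leftInt K (y + h) - leftInt K (y + δ) + leftInt K y) := by
    push_cast [momentSum_eq K hy, momentSum_eq K p1, momentSum_eq K p2, momentSum_eq K p3]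
    ring
  have hn := congrArg (fun z : ℂ => ‖z‖) e
  simp only [Complex.norm_real, Real.norm_eq_abs] at hn
  rw [hn, show (Cz + 12 * Cl + 5) * B = 5 * B + Cz * B + (3 * Cl * B + 3 * Cl * B +
    3 * Cl * B + 3 * Cl * B) by ring]
  refine (norm_add_le _ _).trans (add_le_add ((norm_sub_le _ _).trans (add_le_add ?_ z1)) ?_)
  · rwa [norm_neg, Complex.norm_real, Real.norm_eq_abs, abs_mul]
  · exact (norm_add_le _ _).trans (add_le_add ((norm_sub_le _ _).trans (add_le_add
      ((norm_sub_le _ _).trans (add_le_add (l1 _ p1 (by linarith)) (l1 _ p2 (by linarith))))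
        (l1 _ p3 (by linarith)))) (l1 y hy (by linarith)))

end FA.IdealShortIntervals

end
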