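import Fermat.Agent.DedekindExplicit.Count

/-!
# The zeros of `ξ_K` in blocks

`∑_{|γ| ≤ N} m = O (N height N)`, `∑_{M ≤ |γ| ≤ N} m / (1 + |γ|) = O (height N (1 + log (N / M)))`
and `∑ m height γ / (1 + |γ|)² = O ((1 + log |d| + n)²)`.
-/

set_option autoImplicit false
set_option linter.style.haveILetI false

noncomputable section

universe u

open NumberField Module Complex Finset
open FA.DedekindZF FA.DedekindHadamard FA.DedekindExplicit
open FA.ArtinHooley (fieldSize height_le_rpow)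
open scoped Real Classical

namespace FA.IdealShortIntervals

theorem exists_zero_count : ∃ C, 0 ≤ C ∧ ∀ (K : Type u) [Field K] [NumberField K] (N : ℕ)
    (S : Finset ℂ), (∀ ρ ∈ S, |ρ.im| ≤ N) →
      ∑ ρ ∈ S, (xiMult K ρ : ℝ) ≤ C * ((N : ℝ) + 1) * height K N := by
  obtain ⟨C, hC, h⟩ := exists_fold_weight.{u}
  refine ⟨2 * C, by positivity, fun K _ _ N S hS => ?_⟩
  refine (Finset.sum_le_sum (g := fun ρ => ∑ k ∈ range (N + 1), 2 * foldTerm K k ρ)
    fun ρ hρ => (mult_le_foldTerm K ρ).trans (Finset.single_le_sum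
      (fun k _ => mul_nonneg zero_le_two (foldTerm_nonneg K k ρ)) (a := ⌊|ρ.im|⌋₊)
      (mem_range.2 (Nat.lt_succ_of_le (Nat.floor_le_of_le (hS ρ hρ)))))).trans ?_
  rw [Finset.sum_comm]
  refine (Finset.sum_le_sum (g := fun _ => 2 * C * height K N) fun k hk => ?_).trans (le_of_eq ?_)
  · rw [← Finset.mul_sum]
    have hl : height K k ≤ height K N := height_mono K (by
      rw [Nat.abs_cast, Nat.abs_cast]
      exact Nat.cast_le.2 (Nat.lt_succ_iff.1 (mem_range.1 hk)))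
    linarith [h K k S, mul_le_mul_of_nonneg_left hl hC]
  · rw [Finset.sum_const, card_range, nsmul_eq_mul]
    push_cast
    ring

theorem sum_inv_block_le {M : ℕ} : ∀ {N : ℕ}, M ≤ N →
    ∑ k ∈ Icc M N, ((k : ℝ) + 1)⁻¹ ≤ 1 + Real.log (((N : ℝ) + 1) / ((M : ℝ) + 1)) := by
  intro N h
  induction N, h using Nat.le_induction with
  | base =>
    rw [Icc_self, sum_singleton, div_self (by positivity), Real.log_one, add_zero]
    exact inv_le_one_of_one_le₀ (le_add_of_nonneg_left (Nat.cast_nonneg M))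
  | succ m hm ih =>
    rw [Finset.sum_Icc_succ_top (by omega)]
    push_cast
    have h1 : ((m : ℝ) + 1 + 1)⁻¹ ≤ Real.log (((m : ℝ) + 1 + 1) / ((m : ℝ) + 1)) := by
      have h2 := Real.log_le_sub_one_of_pos
        (show 0 < ((m : ℝ) + 1) / ((m : ℝ) + 1 + 1) by positivity)
      rw [← inv_div ((m : ℝ) + 1 + 1), Real.log_inv] at h2
      have e : (((m : ℝ) + 1 + 1) / ((m : ℝ) + 1))⁻¹ - 1 = -((m : ℝ) + 1 + 1)⁻¹ := by
        field_simp
        ring
      linarith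
    have e2 : Real.log (((m : ℝ) + 1 + 1) / ((M : ℝ) + 1)) =
        Real.log (((m : ℝ) + 1) / ((M : ℝ) + 1)) +
          Real.log (((m : ℝ) + 1 + 1) / ((m : ℝ) + 1)) := by
      rw [← Real.log_mul (by positivity) (by positivity)]
      congr 1
      field_simp
    linarith

theorem exists_mid_sum : ∃ C, 0 ≤ C ∧ ∀ (K : Type u) [Field K] [NumberField K] (M N : ℕ)
    (S : Finset ℂ), M ≤ N → (∀ ρ ∈ S, (M : ℝ) ≤ |ρ.im| ∧ |ρ.im| ≤ N) →
      ∑ ρ ∈ S, (xiMult K ρ : ℝ) / (1 + |ρ.im|) ≤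
        C * height K N * (1 + Real.log (((N : ℝ) + 1) / ((M : ℝ) + 1))) := by
  obtain ⟨C, hC, h⟩ := exists_fold_weight.{u}
  refine ⟨2 * C, by positivity, fun K _ _ M N S hMN hS => ?_⟩
  obtain ⟨c, hc⟩ : ∃ c : ℕ → ℂ → ℝ, c = fun (k : ℕ) ρ => 2 / (k + 1 : ℝ) * foldTerm K k ρ :=
    ⟨_, rfl⟩
  have hc0 : ∀ (k : ℕ) (ρ : ℂ), 0 ≤ c k ρ := fun k ρ => by
    rw [hc]
    exact mul_nonneg (by positivity) (foldTerm_nonneg K k ρ)
  refine (Finset.sum_le_sum (g := fun ρ => ∑ k ∈ Icc M N, c k ρ) fun ρ hρ => ?_).trans ?_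
  · refine le_trans ?_ (Finset.single_le_sum (fun k _ => hc0 k ρ) (a := ⌊|ρ.im|⌋₊)
      (mem_Icc.2 ⟨Nat.le_floor (hS ρ hρ).1, Nat.floor_le_of_le (hS ρ hρ).2⟩))
    have h1 := Nat.floor_le (abs_nonneg ρ.im)
    rw [hc]
    simp only
    rw [div_mul_eq_mul_div]
    exact div_le_div₀ (mul_nonneg zero_le_two (foldTerm_nonneg K _ ρ)) (mult_le_foldTerm K ρ)
      (by positivity) (by linarith)
  rw [Finset.sum_comm]
  have hH := one_le_height K (N : ℝ)
  refine (Finset.sum_le_sum (g := fun k : ℕ => 2 * C * height K N * ((k : ℝ) + 1)⁻¹)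
    fun k hk => ?_).trans ?_
  · rw [hc, ← Finset.mul_sum]
    refine (mul_le_mul_of_nonneg_left (h K k S) (by positivity)).trans ?_
    have hl : height K k ≤ height K N := height_mono K (by
      rw [Nat.abs_cast, Nat.abs_cast]
      exact Nat.cast_le.2 (mem_Icc.1 hk).2)
    rw [div_eq_mul_inv]
    have := mul_le_mul_of_nonneg_left hl (mul_nonneg hC
      (inv_nonneg.2 (show (0 : ℝ) ≤ k + 1 by positivity)))
    linarith
  · rw [← Finset.mul_sum]
    exact mul_le_mul_of_nonneg_left (sum_inv_block_le hMN)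
      (mul_nonneg (by positivity) (by linarith))

theorem exists_weighted_sum : ∃ C, 0 ≤ C ∧ ∀ (K : Type u) [Field K] [NumberField K]
    (S : Finset ℂ), ∑ ρ ∈ S, (xiMult K ρ : ℝ) * height K ρ.im / (1 + |ρ.im|) ^ 2 ≤
      C * fieldSize K ^ 2 := by
  obtain ⟨C, hC, h⟩ := exists_fold_weight.{u}
  refine ⟨2304 * C, by positivity, fun K _ _ S => ?_⟩
  obtain ⟨M, hM⟩ : ∃ M, M = (S.sup fun ρ => ⌊|ρ.im|⌋₊) + 1 := ⟨_, rfl⟩
  obtain ⟨c, hc⟩ : ∃ c : ℕ → ℂ → ℝ, c = fun (k : ℕ) ρ =>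
      2 * height K ((k : ℝ) + 1) / (k + 1 : ℝ) ^ 2 * foldTerm K k ρ := ⟨_, rfl⟩
  have hH : ∀ t : ℝ, 0 ≤ height K t := fun t => zero_le_one.trans (one_le_height K t)
  have hc0 : ∀ (k : ℕ) (ρ : ℂ), 0 ≤ c k ρ := fun k ρ => by
    rw [hc]
    exact mul_nonneg (div_nonneg (mul_nonneg zero_le_two (hH _)) (by positivity))
      (foldTerm_nonneg K k ρ)
  refine (Finset.sum_le_sum (g := fun ρ => ∑ k ∈ range M, c k ρ) fun ρ hρ => ?_).trans ?_
  · refine le_trans ?_ (Finset.single_le_sum (fun k _ => hc0 k ρ) (a := ⌊|ρ.im|⌋₊)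
      (mem_range.2 (hM ▸ Nat.lt_succ_of_le (Finset.le_sup (f := fun ρ : ℂ => ⌊|ρ.im|⌋₊) hρ))))
    have h1 := Nat.floor_le (abs_nonneg ρ.im)
    have h2 := Nat.lt_floor_add_one |ρ.im|
    have hh : height K ρ.im ≤ height K ((⌊|ρ.im|⌋₊ : ℝ) + 1) := height_mono K (by
      rw [abs_of_nonneg (show (0 : ℝ) ≤ (⌊|ρ.im|⌋₊ : ℝ) + 1 by positivity)]
      linarith)
    rw [hc]
    simp only
    rw [div_mul_eq_mul_div]
    refine div_le_div₀ (mul_nonneg (mul_nonneg zero_le_two (hH _)) (foldTerm_nonneg K _ ρ)) ?_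
      (by positivity) (pow_le_pow_left₀ (by positivity) (by linarith) 2)
    rw [mul_comm (2 : ℝ), mul_assoc, mul_comm (xiMult K ρ : ℝ)]
    exact mul_le_mul hh (mult_le_foldTerm K ρ) (Nat.cast_nonneg _) (hH _)
  rw [Finset.sum_comm]
  obtain ⟨g, hg⟩ : ∃ g : ℕ → ℝ, g = fun (k : ℕ) => 1 / √((k : ℝ) + 1) := ⟨_, rfl⟩
  refine (Finset.sum_le_sum (g := fun k => 2304 * C * fieldSize K ^ 2 * (g k - g (k + 1)))
    fun k _ => ?_).trans ?_
  · rw [hc, ← Finset.mul_sum]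
    refine (mul_le_mul_of_nonneg_left (h K k S) (div_nonneg (mul_nonneg zero_le_two (hH _))
      (by positivity))).trans ?_
    have hk : (0 : ℝ) ≤ k := Nat.cast_nonneg k
    have b := height_le_rpow (K := K) (κ := 1 / 4) (by norm_num) (by norm_num) ((k : ℝ) + 1)
    rw [abs_of_nonneg (by linarith)] at b
    have b' : height K k ≤ height K ((k : ℝ) + 1) := height_mono K (by
      rw [abs_of_nonneg hk, abs_of_nonneg (by linarith)]
      linarith)
    have hq : ((1 + ((k : ℝ) + 1)) ^ (1 / 4 : ℝ)) ^ 2 ≤ 2 * √((k : ℝ) + 1) := by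
      rw [← Real.rpow_natCast _ 2, ← Real.rpow_mul (by linarith),
        show ((1 / 4 : ℝ) * (2 : ℕ)) = 1 / 2 by norm_num, ← Real.sqrt_eq_rpow]
      refine (Real.sqrt_le_sqrt (show 1 + ((k : ℝ) + 1) ≤ 2 ^ 2 * ((k : ℝ) + 1) by
        linarith)).trans (le_of_eq ?_)
      rw [Real.sqrt_mul (by norm_num), Real.sqrt_sq (by norm_num)]
    have hp : height K ((k : ℝ) + 1) * height K k ≤
        288 * fieldSize K ^ 2 * √((k : ℝ) + 1) := by
      refine (mul_le_mul b (b'.trans b) (hH _) ((hH _).trans b)).trans ?_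
      rw [show fieldSize K * (3 / (1 / 4)) * (1 + ((k : ℝ) + 1)) ^ (1 / 4 : ℝ) *
        (fieldSize K * (3 / (1 / 4)) * (1 + ((k : ℝ) + 1)) ^ (1 / 4 : ℝ)) =
          144 * fieldSize K ^ 2 * ((1 + ((k : ℝ) + 1)) ^ (1 / 4 : ℝ)) ^ 2 by ring]
      linarith [mul_le_mul_of_nonneg_left hq (show 0 ≤ 144 * fieldSize K ^ 2 by positivity)]
    have e : g k - g (k + 1) = 1 / √((k : ℝ) + 1) - 1 / √((k : ℝ) + 2) := by
      rw [hg]
      push_cast
      ring_nf
    rw [e]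
    have s1 := mul_le_mul_of_nonneg_left (div_le_div_of_nonneg_right hp
      (sq_nonneg ((k : ℝ) + 1))) (show 0 ≤ 2 * C by positivity)
    have s2 := mul_le_mul_of_nonneg_left (FA.GRHProgressions.inv_pow_le_step k)
      (show 0 ≤ 576 * C * fieldSize K ^ 2 by positivity)
    refine le_trans (le_of_eq (by ring)) (s1.trans (le_trans (le_of_eq (by ring))
      (s2.trans (le_of_eq (by ring)))))
  · rw [← Finset.mul_sum]
    refine (mul_le_of_le_one_right (by positivity) ?_)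
    rw [Finset.sum_range_sub' g]
    have h0 : g 0 = 1 := by simp [hg]
    have : 0 ≤ g M := by rw [hg]; positivity
    linarith

end FA.IdealShortIntervals

end
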